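import Fermat.Agent.GAL.RED.Concrete
import Fermat.Agent.GAL.Gauss.Main

/-!
# S36/Geo : Gauss valuations attached to series embeddings

`K` a field with a valuation subring `A`, residue field `k`; `F / K` a field.
A `GEmb A F` is an embedding `φ : F → K((t))` over `K` such that every nonzero `φ y` is a constant
times a Gauss unit.  It defines
* a valuation subring `G.O` of `F` (`y ∈ G.O ↔ φ y ∈ gRing A`),
* its residue field, realised as an intermediate field `G.Fb` of `k((t)) / k`,
* `G.redData : RedData K F k G.Fb`.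
Used for the expansions at `∞`, `0` and at the middle cusps of `X₀(M q²)`.
-/

set_option autoImplicit false
set_option linter.unusedSectionVars false

noncomputable section

namespace Fermat.Agent.S36.Geo

open ModularCurve AlgebraicCurve Fermat.Agent.GAL Fermat.Agent.GAL.Gauss Fermat.Agent.GAL.RED

/-- the generic algebra structure (used for shortcut instances). -/
@[reducible] def algLS (k : Type) [Field k] : Algebra k (LaurentSeries k) := inferInstance

/-- the generic algebra structure (used for shortcut instances). -/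
@[reducible] def algIF (k : Type) [Field k] (E : IntermediateField k (LaurentSeries k)) :
    Algebra k ↥E := inferInstance

variable {K : Type} [Field K] (A : ValuationSubring K)

/-- shortcut instance (the generic search is very slow for `IsLocalRing.ResidueField ↥A`). -/
instance (priority := 3000) instAlgebraLS :
    Algebra (IsLocalRing.ResidueField ↥A) (LaurentSeries (IsLocalRing.ResidueField ↥A)) :=
  algLS _

/-- An embedding in `K((t))` all of whose nonzero values are (constant) * (Gauss unit). -/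
structure GEmb (F : Type) [Field F] [Algebra K F] where
  /-- the expansion -/
  φ : F →+* LaurentSeries K
  φ_algebraMap : ∀ c : K, φ (algebraMap K F c) = HahnSeries.C c
  normable : ∀ y : F, y ≠ 0 → ∃ (c : K) (u : ↥(gRing A)), c ≠ 0 ∧
    φ y = HahnSeries.C c * (u : LaurentSeries K) ∧ gRes A u ≠ 0

variable {A} {F : Type} [Field F] [Algebra K F] (G : GEmb A F)

namespace GEmb

/-- The valuation ring. -/
def O : ValuationSubring F where
  toSubring := (gRing A).comap G.φ
  mem_or_inv_mem' x := by
    by_cases hx0 : x = 0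
    · subst hx0
      exact Or.inl (Subring.zero_mem _)
    obtain ⟨a, u, ha, hxu, hu⟩ := G.normable x hx0
    rcases A.mem_or_inv_mem a with h | h
    · left
      show G.φ x ∈ gRing A
      rw [hxu]
      exact (C_mul_unit_mem_iff A a u hu).mpr h
    · right
      show G.φ x⁻¹ ∈ gRing A
      rw [map_inv₀, hxu, mul_inv, ← map_inv₀]
      exact (gRing A).mul_mem ((C_mem_gRing_iff A _).mpr h)
        (inv_mem_gRing_of_gRes_ne_zero A u hu)

theorem mem_O_iff (x : F) : x ∈ G.O ↔ G.φ x ∈ gRing A := Iff.rfl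

/-- The residue map, with values in `k((t))`. -/
def resHom : ↥G.O →+* LaurentSeries (IsLocalRing.ResidueField ↥A) :=
  (gRes A).comp ((G.φ.comp G.O.subtype).codRestrict (gRing A) (fun x => x.2))

theorem resHom_apply (x : ↥G.O) : G.resHom x = gRes A ⟨G.φ (x : F), x.2⟩ := rfl

theorem algebraMap_mem_O (a : K) (ha : a ∈ A) : algebraMap K F a ∈ G.O := by
  rw [mem_O_iff, G.φ_algebraMap]
  exact (C_mem_gRing_iff A a).mpr ha

theorem resHom_algebraMap (a : K) (ha : a ∈ A) :
    G.resHom ⟨algebraMap K F a, G.algebraMap_mem_O a ha⟩ =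
      HahnSeries.C (IsLocalRing.residue ↥A ⟨a, ha⟩) := by
  rw [resHom_apply, ← gRes_C A ⟨a, ha⟩ ((C_mem_gRing_iff A a).mpr ha)]
  congr 1
  exact Subtype.ext (G.φ_algebraMap a)

theorem inv_mem_O_of_resHom_ne_zero (x : ↥G.O) (hx : G.resHom x ≠ 0) : (x : F)⁻¹ ∈ G.O := by
  rw [mem_O_iff, map_inv₀]
  exact inv_mem_gRing_of_gRes_ne_zero A ⟨G.φ (x : F), x.2⟩ hx

theorem resHom_inv (x : ↥G.O) (h : (x : F)⁻¹ ∈ G.O) : G.resHom ⟨_, h⟩ = (G.resHom x)⁻¹ := by
  rw [resHom_apply, resHom_apply, ← gRes_inv A ⟨G.φ (x : F), x.2⟩ (by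
    have := (G.mem_O_iff _).mp h
    rwa [map_inv₀] at this)]
  congr 1
  exact Subtype.ext (map_inv₀ _ _)

/-- The residue field, as an intermediate field of `k((t)) / k`. -/
def Fb : IntermediateField (IsLocalRing.ResidueField ↥A)
    (LaurentSeries (IsLocalRing.ResidueField ↥A)) where
  carrier := Set.range G.resHom
  mul_mem' := by
    rintro _ _ ⟨x, rfl⟩ ⟨y, rfl⟩
    exact ⟨x * y, map_mul _ _ _⟩
  add_mem' := by
    rintro _ _ ⟨x, rfl⟩ ⟨y, rfl⟩
    exact ⟨x + y, map_add _ _ _⟩
  algebraMap_mem' c := by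
    obtain ⟨⟨a, ha⟩, rfl⟩ := IsLocalRing.residue_surjective c
    exact ⟨⟨algebraMap K F a, G.algebraMap_mem_O a ha⟩, by
      rw [G.resHom_algebraMap a ha, algebraMap_eq_C]⟩
  inv_mem' := by
    rintro _ ⟨x, rfl⟩
    by_cases hx : G.resHom x = 0
    · exact ⟨0, by rw [hx, inv_zero, map_zero]⟩
    · exact ⟨⟨_, G.inv_mem_O_of_resHom_ne_zero x hx⟩, G.resHom_inv x _⟩

/-- shortcut instance (the generic search is very slow for `IsLocalRing.ResidueField ↥A`). -/
instance (priority := 3000) instAlgebraFb : Algebra (IsLocalRing.ResidueField ↥A) ↥G.Fb :=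
  algIF _ G.Fb

theorem mem_Fb_iff (z : LaurentSeries (IsLocalRing.ResidueField ↥A)) :
    z ∈ G.Fb ↔ ∃ x : ↥G.O, G.resHom x = z := Iff.rfl

/-- The residue map. -/
def res : ↥G.O →+* ↥G.Fb := G.resHom.codRestrict G.Fb.toSubring (fun x => ⟨x, rfl⟩)

theorem coe_res (x : ↥G.O) :
    ((G.res x : ↥G.Fb) : LaurentSeries (IsLocalRing.ResidueField ↥A)) = G.resHom x := rfl

theorem res_surjective : Function.Surjective G.res := by
  rintro ⟨_, x, rfl⟩
  exact ⟨x, rfl⟩

/-- **The reduction datum of a series embedding.** -/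
def redData : RedData K F (IsLocalRing.ResidueField ↥A) ↥G.Fb where
  A := A
  O := G.O
  resA := IsLocalRing.residue ↥A
  res := G.res
  resA_surjective := IsLocalRing.residue_surjective
  res_surjective := G.res_surjective
  algebraMap_mem := G.algebraMap_mem_O
  res_algebraMap a ha := by
    apply Subtype.ext
    rw [coe_res, G.resHom_algebraMap a ha, IntermediateField.coe_algebraMap_apply, algebraMap_eq_C]

@[simp] theorem redData_A : G.redData.A = A := rfl
@[simp] theorem redData_O : G.redData.O = G.O := rfl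

open Classical in
/-- the reduction of constants (`0` outside `A`). -/
def _root_.Fermat.Agent.S36.Geo.redAOf (A : ValuationSubring K) (a : K) :
    IsLocalRing.ResidueField ↥A :=
  if h : a ∈ A then IsLocalRing.residue ↥A ⟨a, h⟩ else 0

theorem redData_redA (a : K) : G.redData.redA a = redAOf A a := rfl

theorem coe_red (x : F) (hx : G.φ x ∈ gRing A) :
    ((G.redData.red x : ↥G.Fb) : LaurentSeries (IsLocalRing.ResidueField ↥A)) =
      gRes A ⟨G.φ x, hx⟩ := by
  have hx' : x ∈ G.redData.O := hx
  rw [G.redData.red_of_mem hx']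
  rfl

/-- Every nonzero element is a constant times a unit of `O`. -/
theorem exists_scale (y : F) (hy : y ≠ 0) :
    ∃ c : K, c ≠ 0 ∧ G.redData.red (c⁻¹ • y) ≠ 0 := by
  obtain ⟨c, u, hc, hyu, hu⟩ := G.normable y hy
  refine ⟨c, hc, ?_⟩
  have h1 : G.φ (c⁻¹ • y) = (u : LaurentSeries K) := by
    rw [Algebra.smul_def, map_mul, G.φ_algebraMap, hyu, ← mul_assoc, ← map_mul,
      inv_mul_cancel₀ hc, map_one, one_mul]
  have h2 : G.φ (c⁻¹ • y) ∈ gRing A := by rw [h1]; exact u.2
  intro h0
  have h3 := G.coe_red (c⁻¹ • y) h2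
  rw [h0] at h3
  apply hu
  have h4 : (⟨G.φ (c⁻¹ • y), h2⟩ : ↥(gRing A)) = u := Subtype.ext h1
  rw [← h4, ← h3]
  rfl

end GEmb

end Fermat.Agent.S36.Geo
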