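import Fermat.Agent.GAL.Igusa.Final
import Fermat.Agent.GAL.Igusa.Char0
import Fermat.Agent.GAL.Igusa.CuspProd
import Fermat.Agent.Lib.Gamma0Cosets
import Fermat.Agent.S37.HeckeDiv
import Fermat.Agent.GAL.Hecke.SeriesRed
import Fermat.Agent.S36.Geo.GEmb

/-!
# S36/Geo : numerics

`M` neat (`4 ∣ M` or `9 ∣ M`), `q ∤ M` prime, `A` a place of `Kbar` over `q`, `k` its residue field.
With `g' = g(E k M) = g(FN M)` and `12 s = (q - 1) ψ(M)`:

* `g(FN (M q²)) - 1 = (q + 1) (g' - 1 + s)`      (`genus_level_sq`, `genus_level_sq'`);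
* `g(FN (M q))  - 1 = 2 (g' - 1) + s`            (`genus_level_q`, `genus_level_q'`).
-/

set_option autoImplicit false

noncomputable section

namespace Fermat.Agent.S36.Geo

open ModularCurve AlgebraicCurve Fermat.Agent.S24 Fermat.Agent.GAL Fermat.Agent.GAL.Igusa
  Fermat.Agent.Lib.RR

theorem genusFF_FN (N : ℕ) [NeZero N] : (genusFF Kbar (FN N) : ℚ) = genusFormula N := by
  have h := genusFF_char_zero N
  unfold E at h
  rw [← modularFunctionFieldBar_eq N] at h
  exact h

theorem cuspCount_prime {q : ℕ} (hq : q.Prime) : cuspCount q = 2 := by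
  rw [cuspCount, hq.divisors, Finset.sum_pair hq.one_lt.ne]
  simp [Nat.div_self hq.pos]

theorem cuspCount_prime_sq {q : ℕ} (hq : q.Prime) : cuspCount (q * q) = q + 1 := by
  have h : (q * q).divisors = {1, q, q * q} := by
    rw [← sq, Nat.divisors_prime_pow hq]
    ext d
    simp only [Finset.mem_map, Finset.mem_range, Function.Embedding.coeFn_mk, Finset.mem_insert,
      Finset.mem_singleton]
    constructor
    · rintro ⟨i, hi, rfl⟩
      interval_cases i <;> simp
    · rintro (rfl | rfl | rfl)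
      · exact ⟨0, by omega, by simp⟩
      · exact ⟨1, by omega, by simp⟩
      · exact ⟨2, by omega, rfl⟩
  have h1 : (1 : ℕ) ≠ q := hq.one_lt.ne
  have h2 : (1 : ℕ) ≠ q * q := by nlinarith [hq.two_le]
  have h3 : q ≠ q * q := by nlinarith [hq.two_le]
  rw [cuspCount, h, Finset.sum_insert (by simp [h1, h2]), Finset.sum_insert (by simp [h3]),
    Finset.sum_singleton]
  have h4 : q * q / q = q := Nat.mul_div_cancel _ hq.pos
  have h5 : q * q / (q * q) = 1 := Nat.div_self (Nat.mul_pos hq.pos hq.pos)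
  simp only [h4, h5, Nat.gcd_self, Nat.gcd_one_left, Nat.gcd_one_right, Nat.totient_one,
    Nat.totient_prime hq]
  have := hq.two_le
  omega

theorem dedekindPsi_prime_sq {q : ℕ} (hq : q.Prime) : dedekindPsi (q * q) = q * (q + 1) := by
  have h := Lib.Gamma0Cosets.dedekindPsi_prime_pow hq 1
  rw [mul_add, mul_one]
  simpa [pow_succ, mul_comm] using h

theorem dedekindPsi_prime' {q : ℕ} (hq : q.Prime) : dedekindPsi q = q + 1 := by
  have h := Lib.Gamma0Cosets.dedekindPsi_prime_pow hq 0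
  simpa using h

variable {M q : ℕ} [NeZero M] [NeZero q]

/-- **Numerics, level `M q²`** (characteristic `0`). -/
theorem genus_level_sq (hneat : 4 ∣ M ∨ 9 ∣ M) (hq : q.Prime) (hqM : ¬ q ∣ M) :
    12 * ((genusFF Kbar (FN (M * q * q)) : ℤ) - 1) =
      ((q : ℤ) + 1) * (12 * ((genusFF Kbar (FN M) : ℤ) - 1) + ((q : ℤ) - 1) * dedekindPsi M) := by
  have hcop : M.Coprime (q * q) :=
    Nat.Coprime.mul_right ((Nat.Prime.coprime_iff_not_dvd hq).mpr hqM).symm
      ((Nat.Prime.coprime_iff_not_dvd hq).mpr hqM).symm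
  have hneat' : 4 ∣ M * q * q ∨ 9 ∣ M * q * q := by
    rcases hneat with h | h
    · exact Or.inl (Dvd.dvd.mul_right (Dvd.dvd.mul_right h q) q)
    · exact Or.inr (Dvd.dvd.mul_right (Dvd.dvd.mul_right h q) q)
  have h1 := genusFF_FN (M * q * q)
  have h2 := genusFF_FN M
  rw [genusFormula_of_neat hneat', mul_assoc, Lib.Gamma0Cosets.dedekindPsi_mul hcop,
    cuspCount_mul hcop, dedekindPsi_prime_sq hq, cuspCount_prime_sq hq] at h1
  rw [genusFormula_of_neat hneat] at h2
  have h3 : (12 * ((genusFF Kbar (FN (M * q * q)) : ℚ) - 1)) =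
      ((q : ℚ) + 1) * (12 * ((genusFF Kbar (FN M) : ℚ) - 1) + ((q : ℚ) - 1) * dedekindPsi M) := by
    rw [mul_assoc M q q, h1, h2]
    push_cast
    ring
  exact_mod_cast h3

/-- **Numerics, level `M q`** (characteristic `0`). -/
theorem genus_level_q (hneat : 4 ∣ M ∨ 9 ∣ M) (hq : q.Prime) (hqM : ¬ q ∣ M) :
    12 * ((genusFF Kbar (FN (M * q)) : ℤ) - 1) =
      2 * (12 * ((genusFF Kbar (FN M) : ℤ) - 1)) + ((q : ℤ) - 1) * dedekindPsi M := by
  have hcop : M.Coprime q := ((Nat.Prime.coprime_iff_not_dvd hq).mpr hqM).symm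
  have hneat' : 4 ∣ M * q ∨ 9 ∣ M * q := by
    rcases hneat with h | h
    · exact Or.inl (Dvd.dvd.mul_right h q)
    · exact Or.inr (Dvd.dvd.mul_right h q)
  have h1 := genusFF_FN (M * q)
  have h2 := genusFF_FN M
  rw [genusFormula_of_neat hneat', Lib.Gamma0Cosets.dedekindPsi_mul hcop,
    cuspCount_mul hcop, dedekindPsi_prime' hq, cuspCount_prime hq] at h1
  rw [genusFormula_of_neat hneat] at h2
  have h3 : (12 * ((genusFF Kbar (FN (M * q)) : ℚ) - 1)) =
      2 * (12 * ((genusFF Kbar (FN M) : ℚ) - 1)) + ((q : ℚ) - 1) * dedekindPsi M := by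
    rw [h1, h2]
    push_cast
    ring
  exact_mod_cast h3

/-- shortcut instance (the generic search is very slow for `IsLocalRing.ResidueField ↥A`). -/
instance (priority := 3000) instAlgebraE (A : ValuationSubring Kbar) (M : ℕ) :
    Algebra (IsLocalRing.ResidueField ↥A) (E (IsLocalRing.ResidueField ↥A) M) :=
  algIF _ _

/-- good reduction at level `M`. -/
theorem genusFF_E_eq (A : ValuationSubring Kbar) (hneat : 4 ∣ M ∨ 9 ∣ M) (hq : q.Prime)
    (hqM : ¬ q ∣ M) (hA : A.LiesOverPrime q) :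
    genusFF (IsLocalRing.ResidueField ↥A) (E (IsLocalRing.ResidueField ↥A) M) =
      genusFF Kbar (FN M) := by
  haveI := Fermat.Agent.GAL.Hecke.charP_residueField A hq hA
  have hM : ((M : ℕ) : IsLocalRing.ResidueField ↥A) ≠ 0 := by
    rw [Ne, CharP.cast_eq_zero_iff (IsLocalRing.ResidueField ↥A) q]
    exact hqM
  rw [genusFF_eq' A M hM hneat]
  have h1 := genusFF_char_zero M
  have h2 := genusFF_FN M
  exact_mod_cast h1.trans h2.symm

/-- **Numerics, level `M q²`**, in terms of the genus of the reduction of level `M`. -/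
theorem genus_level_sq' (A : ValuationSubring Kbar) (hneat : 4 ∣ M ∨ 9 ∣ M) (hq : q.Prime)
    (hqM : ¬ q ∣ M) (hA : A.LiesOverPrime q) :
    12 * ((genusFF Kbar (FN (M * q * q)) : ℤ) - 1) =
      ((q : ℤ) + 1) * (12 * ((genusFF (IsLocalRing.ResidueField ↥A)
        (E (IsLocalRing.ResidueField ↥A) M) : ℤ) - 1) + ((q : ℤ) - 1) * dedekindPsi M) := by
  rw [genusFF_E_eq A hneat hq hqM hA]
  exact genus_level_sq hneat hq hqM

/-- **Numerics, level `M q`**, in terms of the genus of the reduction of level `M`. -/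
theorem genus_level_q' (A : ValuationSubring Kbar) (hneat : 4 ∣ M ∨ 9 ∣ M) (hq : q.Prime)
    (hqM : ¬ q ∣ M) (hA : A.LiesOverPrime q) :
    12 * ((genusFF Kbar (FN (M * q)) : ℤ) - 1) =
      2 * (12 * ((genusFF (IsLocalRing.ResidueField ↥A)
        (E (IsLocalRing.ResidueField ↥A) M) : ℤ) - 1)) + ((q : ℤ) - 1) * dedekindPsi M := by
  rw [genusFF_E_eq A hneat hq hqM hA]
  exact genus_level_q hneat hq hqM

end Fermat.Agent.S36.Geo
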