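import Fermat.Agent.S36.Geo.GlueCor
import Fermat.Agent.S36.Geo.GEmb
import Fermat.Agent.S36.StepA.Tame
import Fermat.Agent.DR.Abs.Defs
import Fermat.Agent.GAL.Igusa.Level

/-!
# S36/Geo : the "big" valuations of `F2 = FN (M q q)` (`q ∤ M` the residue characteristic)

`A` a place of `Kbar` over `q`, `k` its residue field.  The extensions to `F2` of the Gauss valuation of
`Kbar(j)` are the Gauss valuations of the expansions
* at `∞`   : `embInf`,  `φ = ` inclusion `F2 ⊆ Kbar((t))`;
* at `0`   : `embZero`, `φ = ` inclusion `∘ w_{q²}`;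
* at the middle cusps : `embMid ζ`, `ζ` a primitive `q`-th root of unity,
  `(u(t), u(t^q), u(t^{q²})) ↦ (u(t), u(t^q), u(ζ t))`.
`MidIdx` is the (finite) set of the valuation rings of the `embMid ζ`; `BigIdx = {∞, 0} ⊔ MidIdx`;
`bigRed : MultiRed Kbar F2 k bigFb` the family of the reductions.
-/

set_option autoImplicit false
set_option linter.unusedSectionVars false

noncomputable section

namespace Fermat.Agent.S36.Geo

open ModularCurve AlgebraicCurve Fermat.Agent.S24 Fermat.Agent.GAL Fermat.Agent.GAL.Gauss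
  Fermat.Agent.GAL.RED Fermat.Agent.GAL.NormFormula Fermat.Agent.S36.StepA Fermat.Agent.DR.Abs

/-- the hypotheses of the block, bundled. -/
structure Setup where
  /-- the place of `Kbar` -/
  A : ValuationSubring Kbar
  /-- the prime-to-`q` part of the level -/
  M : ℕ
  /-- the residue characteristic -/
  q : ℕ
  hM : NeZero M
  hq : q.Prime
  hqM : ¬ q ∣ M
  hA : A.LiesOverPrime q

namespace Setup

variable (S : Setup)

instance : NeZero S.M := S.hM
instance : NeZero S.q := ⟨S.hq.ne_zero⟩

/-- the residue field. -/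
abbrev k : Type := IsLocalRing.ResidueField ↥S.A

/-- the function field of level `M q²`. -/
abbrev F2 : Type := FN (S.M * S.q * S.q)

/-- the function field of level `M` in characteristic `q`. -/
abbrev E0 : IntermediateField S.k (LaurentSeries S.k) := modularFunctionFieldFullC S.k S.M

/-- `w_{q²}`. -/
def W2 : S.F2 ≃ₐ[Kbar] S.F2 := (exists_W2 S.hq S.hqM).choose

theorem isW2 : IsW2 S.M S.q S.W2 := (exists_W2 S.hq S.hqM).choose_spec

/-- the primitive `q`-th roots of unity. -/
abbrev Roots : Type := {ζ : Kbar // IsPrimitiveRoot ζ S.q}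

/-- the expansion at the middle cusp attached to `ζ`. -/
def iotaMid (ζ : S.Roots) : S.F2 →+* LaurentSeries Kbar := (exists_mid S.hq S.hqM ζ.2).choose

theorem isMid (ζ : S.Roots) : IsMid S.M S.q ζ.1 (ζ.2.ne_zero S.hq.ne_zero) (S.iotaMid ζ) :=
  (exists_mid S.hq S.hqM ζ.2).choose_spec

/-- translation between `StepA.Normable` and the field `normable` of `GEmb`. -/
theorem normable_iff (s : LaurentSeries Kbar) : Normable S.A s ↔
    ∃ (c : Kbar) (u : ↥(gRing S.A)), c ≠ 0 ∧ s = HahnSeries.C c * (u : LaurentSeries Kbar) ∧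
      gRes S.A u ≠ 0 := normable_iff'

/-- **(= `StepA.normable_coe`, helper96.)** -/
theorem normable_inf (y : S.F2) (hy : y ≠ 0) : Normable S.A (y : LaurentSeries Kbar) :=
  normable_coe S.hq S.hA y hy

/-- **(= `StepA.IsMid.normable`, helper96.)** -/
theorem normable_mid (ζ : S.Roots) (y : S.F2) (hy : y ≠ 0) : Normable S.A (S.iotaMid ζ y) :=
  IsMid.normable S.hq S.hA ζ.2.pow_eq_one (S.isMid ζ) y hy

/-- the expansion at `∞`. -/
def embInf : GEmb S.A S.F2 where
  φ := valN (S.M * S.q * S.q)
  φ_algebraMap c := by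
    rw [valN_apply, IntermediateField.coe_algebraMap_apply, algebraMap_eq_C]
  normable y hy := (S.normable_iff _).mp (S.normable_inf y hy)

/-- the expansion at `0`. -/
def embZero : GEmb S.A S.F2 where
  φ := (valN (S.M * S.q * S.q)).comp (S.W2 : S.F2 →+* S.F2)
  φ_algebraMap c := by
    show valN (S.M * S.q * S.q) (S.W2 (algebraMap Kbar S.F2 c)) = _
    rw [AlgEquiv.commutes, valN_apply, IntermediateField.coe_algebraMap_apply, algebraMap_eq_C]
  normable y hy := (S.normable_iff _).mp
    (S.normable_inf (S.W2 y) ((map_ne_zero_iff _ S.W2.injective).mpr hy))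

/-- the expansion at the middle cusp attached to `ζ`. -/
def embMid (ζ : S.Roots) : GEmb S.A S.F2 where
  φ := S.iotaMid ζ
  φ_algebraMap c := by rw [(S.isMid ζ).map_const, algebraMap_eq_C]
  normable y hy := (S.normable_iff _).mp (S.normable_mid ζ y hy)

/-- the set of the middle valuation rings. -/
def MidIdx : Type := {O : ValuationSubring S.F2 // ∃ ζ : S.Roots, (S.embMid ζ).O = O}

/-- a root of unity defining the middle valuation `w`. -/
def MidIdx.root {S : Setup} (w : S.MidIdx) : S.Roots := w.2.choose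

theorem MidIdx.root_spec {S : Setup} (w : S.MidIdx) : (S.embMid w.root).O = w.1 := w.2.choose_spec

/-- the class of `ζ`. -/
def midOf (ζ : S.Roots) : S.MidIdx := ⟨(S.embMid ζ).O, ζ, rfl⟩

instance : Finite S.Roots := by
  have : Finite {ζ : Kbar // ζ ∈ primitiveRoots S.q Kbar} := inferInstance
  refine Finite.of_injective
    (fun ζ : S.Roots => (⟨ζ.1, (mem_primitiveRoots S.hq.pos).mpr ζ.2⟩ :
      {ζ : Kbar // ζ ∈ primitiveRoots S.q Kbar})) ?_
  intro a b h
  exact Subtype.ext (congrArg (fun z => z.1) h)

theorem midOf_surjective : Function.Surjective S.midOf := by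
  rintro ⟨O, ζ, rfl⟩
  exact ⟨ζ, rfl⟩

instance : Finite S.MidIdx := Finite.of_surjective _ S.midOf_surjective

instance : Fintype S.MidIdx := Fintype.ofFinite _
instance : Fintype S.Roots := Fintype.ofFinite _

/-- the index set of the big valuations. -/
inductive BigIdx (S : Setup) : Type
  | inf : BigIdx S
  | zero : BigIdx S
  | mid : S.MidIdx → BigIdx S

/-- the series embedding of a big valuation. -/
def bigEmb : S.BigIdx → GEmb S.A S.F2
  | .inf => S.embInf
  | .zero => S.embZero
  | .mid w => S.embMid w.root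

/-- the residue fields. -/
abbrev bigFb (i : S.BigIdx) : Type := ↥(S.bigEmb i).Fb

/-- **the family of the big reductions.** -/
def bigRed : MultiRed Kbar S.F2 S.k S.bigFb where
  R i := (S.bigEmb i).redData
  A := S.A
  redA a := redAOf S.A a
  A_eq i := (S.bigEmb i).redData_A
  redA_eq i a := (S.bigEmb i).redData_redA a
  redA_surj c := by
    obtain ⟨⟨a, ha⟩, rfl⟩ := IsLocalRing.residue_surjective c
    exact ⟨a, ha, by rw [redAOf, dif_pos ha]⟩

end Setup

end Fermat.Agent.S36.Geo
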