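import Fermat.Agent.S36.Geo.HPlaces
import Fermat.Agent.GAL.RED.CurveBasic

/-!
# S36/Geo/HGenus : the genus of the curve `a b (b - a)^(q-1) = c` is `≥ (q-1)/2`
-/

set_option autoImplicit false

namespace Fermat.Agent.S36.Geo

open AlgebraicCurve Fermat.Agent.Lib.RR IntermediateField Polynomial

variable {k Fb : Type*} [Field k] [Field Fb] [Algebra k Fb] [IsAlgClosed k] [IsFF k Fb]
variable {q : ℕ} [Fact q.Prime] [CharP k q] {c : k} {a b : Fb}

namespace IsHCurve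

omit [IsAlgClosed k] [IsFF k Fb] in
/-- (aux.) at a point over `t = 1`: `q + 1 ≤ 2 ord (t - 1)`. -/
theorem HGenus_le_two_mul_ord (h : IsHCurve k q c a b) (w : Place k Fb)
    (hw : 0 < w.ord (h.t - algebraMap k Fb 1)) :
    w.ord h.t = 0 ∧ (q : ℤ) + 1 ≤ 2 * w.ord (h.t - algebraMap k Fb 1) := by
  have hq : 2 ≤ q := (Fact.out : q.Prime).two_le
  rw [map_one] at hw ⊢
  have h10 : h.t - 1 ≠ 0 := by
    intro h0
    rw [h0, w.ord_zero] at hw
    exact lt_irrefl _ hw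
  have ht : w.ord h.t = 0 := by
    have h1 : h.t = 1 + (h.t - 1) := by ring
    rw [h1, GAL.RED.ord_add_eq_of_lt w one_ne_zero h10 (by rwa [w.ord_one]), w.ord_one]
  refine ⟨ht, ?_⟩
  have ht0 : h.t ≠ 0 := div_ne_zero h.a_ne h.b_ne
  have h1t : (1 - h.t) ≠ 0 := by
    intro h0
    apply h10
    linear_combination -h0
  have h1 := congrArg w.ord h.eq_t
  rw [w.ord_mul (mul_ne_zero ht0 (pow_ne_zero _ h1t)) (pow_ne_zero _ h.b_ne),
    w.ord_mul ht0 (pow_ne_zero _ h1t), GAL.RED.ord_pow, GAL.RED.ord_pow, GAL.RED.ord_algebraMap,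
    ht] at h1
  have h2 : w.ord (1 - h.t) = w.ord (h.t - 1) := by
    rw [← GAL.RED.ord_neg, neg_sub]
  rw [h2] at h1
  have h3 : ((q - 1 : ℕ) : ℤ) = (q : ℤ) - 1 := by
    push_cast [Nat.cast_sub (by omega : 1 ≤ q)]
    ring
  rw [h3] at h1
  push_cast at h1
  have h4 : ((q : ℤ) + 1) ∣ 2 * w.ord (h.t - 1) := by
    refine ⟨w.ord (h.t - 1) + w.ord b, ?_⟩
    linarith
  exact Int.le_of_dvd (by omega) h4

/-- **genus**: `g ≥ (q-1)/2`.  `GAL.FF.riemann_hurwitz_le_adjoin h.t` with `S` = the places over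
`t = 0, ∞, 1`: `∑ (e_w - 1) ≥ q + q + (q - 1)` (over `t = 1`: `∑ e_w = q + 1` and at most two
places because `(q+1)/2 ∣ e_w`; no need of `card_eq_neg`). -/
theorem genus_ge (h : IsHCurve k q c a b) (hgen : k⟮a, b⟯ = ⊤) :
    (q : ℤ) - 1 ≤ 2 * (genusFF k Fb : ℤ) := by
  classical
  have hx := h.trans_t
  have := h.finiteDimensional_t hgen
  have := h.isSeparable_t hgen
  have := GAL.FF.isFF_adjoin h.t hx
  have hfr := h.finrank_t hgen
  have ht_ord : ∀ w : Place k Fb, w.ord h.t = w.ord a - w.ord b := fun w =>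
    GAL.RED.ord_div w h.a_ne h.b_ne
  -- the point over `t = 0`
  obtain ⟨w₀, hw₀, -⟩ := h.existsUnique_gt hgen
  have ho₀ := h.ord_of_gt hgen w₀ hw₀
  have ht₀ : w₀.ord h.t = q + 1 := by rw [ht_ord, ho₀.1, ho₀.2]; ring
  have he₀ : (w₀.ramificationIndex k⟮h.t⟯ : ℤ) = q + 1 := by
    have h1 : 0 < w₀.ord (h.t - algebraMap k Fb 0) := by
      rw [map_zero, sub_zero, ht₀]; positivity
    rw [GAL.FF.ramificationIndex_adjoin_of_pos h.t hx w₀ 0 h1, map_zero, sub_zero, ht₀]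
  -- the point over `t = ∞`
  obtain ⟨w₁, hw₁, -⟩ := h.existsUnique_lt hgen
  have ho₁ := h.ord_of_lt hgen w₁ hw₁
  have ht₁ : w₁.ord h.t = -(q + 1) := by rw [ht_ord, ho₁.1, ho₁.2]; ring
  have he₁ : (w₁.ramificationIndex k⟮h.t⟯ : ℤ) = q + 1 := by
    have h1 : w₁.ord h.t < 0 := by
      rw [ht₁]
      have : (0 : ℤ) ≤ q := Int.natCast_nonneg _
      omega
    rw [GAL.FF.ramificationIndex_adjoin_of_neg h.t hx w₁ h1, ht₁]; ring
  -- the points over `t = 1`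
  obtain ⟨w₂, hw₂⟩ := GAL.FF.Cor.exists_zero_of_transcendental
    (GAL.FF.Cor.transcendental_sub_algebraMap hx (1 : k))
  set v : Place k k⟮h.t⟯ := w₂.restrict k⟮h.t⟯ with hv
  set u : k⟮h.t⟯ := AdjoinSimple.gen k h.t - algebraMap k k⟮h.t⟯ 1 with hu
  have hmap : algebraMap k⟮h.t⟯ Fb u = h.t - algebraMap k Fb 1 := by
    rw [hu, map_sub, AdjoinSimple.algebraMap_gen, ← IsScalarTower.algebraMap_apply]
  have hvu : 0 < v.ord u := by
    have h1 := w₂.ord_restrict (F := k⟮h.t⟯) u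
    rw [hmap] at h1
    have he : (0 : ℤ) < (w₂.ramificationIndex k⟮h.t⟯ : ℤ) := by
      exact_mod_cast w₂.ramificationIndex_pos (F := k⟮h.t⟯)
    rw [h1] at hw₂
    exact (mul_pos_iff_of_pos_left he).1 hw₂
  have hfib : ∀ w ∈ v.fiber Fb, 0 < w.ord (h.t - algebraMap k Fb 1) := by
    intro w hw
    have h1 := w.ord_restrict (F := k⟮h.t⟯) u
    rw [hmap, Place.mem_fiber.1 hw] at h1
    have he : (0 : ℤ) < (w.ramificationIndex k⟮h.t⟯ : ℤ) := by
      exact_mod_cast w.ramificationIndex_pos (F := k⟮h.t⟯)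
    rw [h1]
    positivity
  have hsum := GAL.FF.sum_ramificationIndex (F' := Fb) v
  rw [hfr] at hsum
  have hge : ∀ w ∈ v.fiber Fb, (q : ℤ) + 1 ≤ 2 * (w.ramificationIndex k⟮h.t⟯ : ℤ) := by
    intro w hw
    rw [GAL.FF.ramificationIndex_adjoin_of_pos h.t hx w 1 (hfib w hw)]
    exact (h.HGenus_le_two_mul_ord w (hfib w hw)).2
  have hcard : ((v.fiber Fb).card : ℤ) ≤ 2 := by
    have h1 : ∑ w ∈ v.fiber Fb, ((q : ℤ) + 1) ≤
        ∑ w ∈ v.fiber Fb, 2 * (w.ramificationIndex k⟮h.t⟯ : ℤ) := Finset.sum_le_sum hge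
    rw [Finset.sum_const, ← Finset.mul_sum, hsum, nsmul_eq_mul] at h1
    push_cast at h1
    have h2 : (0 : ℤ) < (q : ℤ) + 1 := by positivity
    nlinarith
  have hsum1 : ∑ w ∈ v.fiber Fb, ((w.ramificationIndex k⟮h.t⟯ : ℤ) - 1) =
      (q : ℤ) + 1 - (v.fiber Fb).card := by
    rw [Finset.sum_sub_distrib, hsum, Finset.sum_const, nsmul_eq_mul, mul_one]
    push_cast
    ring
  have hn₁ : w₁ ∉ v.fiber Fb := by
    intro hw
    have := (h.HGenus_le_two_mul_ord w₁ (hfib w₁ hw)).1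
    rw [ht₁] at this
    have : (0 : ℤ) ≤ q := Int.natCast_nonneg _
    omega
  have hn₀ : w₀ ∉ insert w₁ (v.fiber Fb) := by
    intro hw
    rcases Finset.mem_insert.1 hw with rfl | hw
    · rw [ht₀] at ht₁
      have : (0 : ℤ) ≤ q := Int.natCast_nonneg _
      omega
    · have := (h.HGenus_le_two_mul_ord w₀ (hfib w₀ hw)).1
      rw [ht₀] at this
      have : (0 : ℤ) ≤ q := Int.natCast_nonneg _
      omega
  have hRH := GAL.FF.riemann_hurwitz_le_adjoin h.t hx (insert w₀ (insert w₁ (v.fiber Fb)))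
  rw [Finset.sum_insert hn₀, Finset.sum_insert hn₁, hsum1, he₀, he₁, hfr] at hRH
  push_cast at hRH
  linarith

end IsHCurve

end Fermat.Agent.S36.Geo
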