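import Fermat.Agent.S36.Geo.HCurve

/-!
# S36/Geo/HIndepB : `[k(a,b) : k(a)] = q` (Eisenstein)
-/

set_option autoImplicit false

namespace Fermat.Agent.S36.Geo

open AlgebraicCurve Fermat.Agent.Lib.RR IntermediateField Polynomial

noncomputable def HIndepB_low (k : Type*) [Field k] (q : ℕ) (c : k) : k[X][X] :=
  C (C c⁻¹ * X) * (1 - C X * X) ^ (q - 1)

noncomputable def HIndepB_poly (k : Type*) [Field k] (q : ℕ) (c : k) : k[X][X] :=
  X ^ q - HIndepB_low k q c

theorem HIndepB_low_degree (k : Type*) [Field k] (q : ℕ) (hq : 0 < q) (c : k) :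
    (HIndepB_low k q c).degree < (q : WithBot ℕ) := by
  have h : (HIndepB_low k q c).natDegree ≤ q - 1 := by
    unfold HIndepB_low
    compute_degree
  refine lt_of_le_of_lt degree_le_natDegree ?_
  exact_mod_cast (by omega : (HIndepB_low k q c).natDegree < q)

theorem HIndepB_monic (k : Type*) [Field k] (q : ℕ) (hq : 0 < q) (c : k) :
    (HIndepB_poly k q c).Monic :=
  monic_X_pow_sub (HIndepB_low_degree k q hq c)

theorem HIndepB_degree (k : Type*) [Field k] (q : ℕ) (hq : 0 < q) (c : k) :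
    (HIndepB_poly k q c).degree = q := by
  unfold HIndepB_poly
  rw [degree_sub_eq_left_of_degree_lt, degree_X_pow]
  rw [degree_X_pow]
  exact HIndepB_low_degree k q hq c

theorem HIndepB_coeff_mem (k : Type*) [Field k] (q : ℕ) (c : k) (n : ℕ) (hn : n < q) :
    (HIndepB_poly k q c).coeff n ∈ Ideal.span {(X : k[X])} := by
  unfold HIndepB_poly HIndepB_low
  rw [coeff_sub, coeff_X_pow, if_neg hn.ne, zero_sub, coeff_C_mul, Ideal.mem_span_singleton]
  refine (dvd_neg).mpr ?_
  exact Dvd.dvd.mul_right (Dvd.intro_left _ rfl) _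

theorem HIndepB_coeff_zero (k : Type*) [Field k] (q : ℕ) (hq : 0 < q) (c : k) :
    (HIndepB_poly k q c).coeff 0 = - (C c⁻¹ * X) := by
  unfold HIndepB_poly HIndepB_low
  rw [coeff_sub, coeff_X_pow, if_neg hq.ne, zero_sub, coeff_C_mul, coeff_zero_eq_eval_zero]
  simp

theorem HIndepB_irreducible (k : Type*) [Field k] (q : ℕ) (hq : 0 < q) (c : k) (hc : c ≠ 0) :
    Irreducible (HIndepB_poly k q c) := by
  have hP : (Ideal.span {(X : k[X])}).IsPrime :=
    (Ideal.span_singleton_prime X_ne_zero).mpr prime_X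
  apply irreducible_of_eisenstein_criterion hP
  · rw [(HIndepB_monic k q hq c).leadingCoeff]
    intro h
    exact hP.ne_top ((Ideal.eq_top_iff_one _).mpr h)
  · intro n hn
    rw [HIndepB_degree k q hq c] at hn
    exact HIndepB_coeff_mem k q c n (by exact_mod_cast hn)
  · rw [HIndepB_degree k q hq c]
    exact_mod_cast hq
  · rw [HIndepB_coeff_zero k q hq c, Ideal.span_singleton_pow, Ideal.mem_span_singleton, dvd_neg]
    intro h
    rw [pow_two, mul_comm (C c⁻¹)] at h
    have h2 := (mul_dvd_mul_iff_left (X_ne_zero (R := k))).mp h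
    have h3 : IsUnit (X : k[X]) :=
      isUnit_of_dvd_unit h2 (isUnit_C.mpr (isUnit_iff_ne_zero.mpr (inv_ne_zero hc)))
    exact not_isUnit_X h3
  · exact (HIndepB_monic k q hq c).isPrimitive

theorem HIndepB_key {k Fb : Type*} [Field k] [Field Fb] [Algebra k Fb] (q : ℕ) (hq : 0 < q) (c : k)
    (hc : c ≠ 0) (a β : Fb) (ha : Transcendental k a)
    (hβ : β ^ q = algebraMap k Fb c⁻¹ * a * (1 - a * β) ^ (q - 1))
    (u : Fin q → Fb) (hu : ∀ j, u j ∈ k⟮a⟯) (hsum : ∑ j, u j * β ^ (j : ℕ) = 0) :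
    ∀ j, u j = 0 := by
  classical
  have hg : Function.Injective ((aeval a : k[X] →ₐ[k] Fb) : k[X] →+* Fb) :=
    transcendental_iff_injective.mp ha
  set φ : FractionRing k[X] →+* Fb := IsFractionRing.lift hg with hφ
  have hφalg : ∀ r : k[X], φ (algebraMap k[X] (FractionRing k[X]) r) = aeval a r := by
    intro r
    exact IsFractionRing.lift_algebraMap hg r
  set F : (FractionRing k[X])[X] :=
    (HIndepB_poly k q c).map (algebraMap k[X] (FractionRing k[X])) with hF
  have hFirr : Irreducible F :=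
    ((HIndepB_monic k q hq c).irreducible_iff_irreducible_map_fraction_map).mp
      (HIndepB_irreducible k q hq c hc)
  have hFdeg : F.degree = q := by
    rw [hF, (HIndepB_monic k q hq c).degree_map, HIndepB_degree k q hq c]
  have hcomp : φ.comp (algebraMap k[X] (FractionRing k[X])) =
      ((aeval a : k[X] →ₐ[k] Fb) : k[X] →+* Fb) := RingHom.ext hφalg
  have hFev : eval₂ φ β F = 0 := by
    rw [hF, eval₂_map, hcomp]
    unfold HIndepB_poly HIndepB_low
    simp only [eval₂_sub, eval₂_pow, eval₂_X, eval₂_mul, eval₂_C, eval₂_one, RingHom.coe_coe,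
      map_mul, aeval_C, aeval_X]
    rw [hβ, sub_self]
  have hw : ∀ j, ∃ w : FractionRing k[X], φ w = u j := by
    intro j
    obtain ⟨r, s, hrs⟩ := (mem_adjoin_simple_iff k (u j)).mp (hu j)
    refine ⟨algebraMap _ _ r / algebraMap _ _ s, ?_⟩
    rw [map_div₀, hφalg, hφalg, hrs]
  choose w hw using hw
  have hGev : eval₂ φ β (ofFn q w) = 0 := by
    rw [ofFn_eq_sum_monomial, eval₂_finsetSum, ← hsum]
    apply Finset.sum_congr rfl
    intro j _
    rw [eval₂_monomial, hw]
  have hG0 : ofFn q w = 0 := by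
    by_contra hne
    have hndvd : ¬ F ∣ ofFn q w := by
      intro hdvd
      have h1 := degree_le_of_dvd hdvd hne
      rw [hFdeg] at h1
      exact absurd (lt_of_le_of_lt h1 (ofFn_degree_lt w)) (lt_irrefl _)
    obtain ⟨s, t, hst⟩ := (hFirr.coprime_iff_not_dvd).mpr hndvd
    have := congrArg (eval₂ φ β) hst
    rw [eval₂_add, eval₂_mul, eval₂_mul, hFev, hGev, mul_zero, mul_zero, add_zero, eval₂_one] at this
    exact zero_ne_one this
  have hw0 : w = 0 := injective_ofFn q (by rw [hG0, map_zero])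
  intro j
  rw [← hw j, hw0, Pi.zero_apply, map_zero]

variable {k Fb : Type*} [Field k] [Field Fb] [Algebra k Fb]
variable {q : ℕ} [Fact q.Prime] [CharP k q] {c : k} {a b : Fb}

namespace IsHCurve

/-- (C2) `1, b, …, b^(q-1)` are linearly independent over `k(a)`.
PROOF.  `β := 1/b` is a root of `X^q - (a/c) (1 - a X)^(q-1)`, which is Eisenstein at the prime `a`
of `k[a]` (`Polynomial.irreducible_of_eisenstein_criterion` +
`Polynomial.IsPrimitive.irreducible_iff_irreducible_map_fraction_map`; `k[a] ≃ k[X]` since `a` is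
transcendental). -/
theorem indep_b (h : IsHCurve k q c a b) (u : Fin q → Fb) (hu : ∀ j, u j ∈ k⟮a⟯)
    (hsum : ∑ j, u j * b ^ (j : ℕ) = 0) : ∀ j, u j = 0 := by
  have hq : 0 < q := (Fact.out : q.Prime).pos
  have hb : b ≠ 0 := by
    intro hb
    have := h.rel
    rw [hb, mul_zero, zero_mul] at this
    exact h.c_ne ((map_eq_zero (algebraMap k Fb)).mp this.symm)
  have hβ : (b⁻¹) ^ q = algebraMap k Fb c⁻¹ * a * (1 - a * b⁻¹) ^ (q - 1) := by
    have h1 : (1 - a * b⁻¹) = (b - a) * b⁻¹ := by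
      field_simp
    have hcne : algebraMap k Fb c ≠ 0 := (map_ne_zero (algebraMap k Fb)).mpr h.c_ne
    have hqq : (b⁻¹) ^ q = (b⁻¹) ^ (q - 1) * b⁻¹ := by
      rw [← pow_succ]
      congr 1
      omega
    rw [h1, mul_pow, map_inv₀, hqq, ← h.rel]
    have hne : a * b * (b - a) ^ (q - 1) ≠ 0 := by
      rw [h.rel]; exact hcne
    have ha : a ≠ 0 := fun h0 => hne (by rw [h0]; ring)
    have hba : (b - a) ^ (q - 1) ≠ 0 := fun h0 => hne (by rw [h0]; ring)
    field_simp
  have hsum' : ∑ j : Fin q, u (Fin.rev j) * (b⁻¹) ^ (j : ℕ) = 0 := by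
    have h2 : ∑ j : Fin q, u (Fin.rev j) * (b⁻¹) ^ (j : ℕ) =
        ∑ j : Fin q, u j * (b⁻¹) ^ ((Fin.rev j : Fin q) : ℕ) := by
      rw [← Equiv.sum_comp Fin.revPerm]
      apply Finset.sum_congr rfl
      intro j _
      simp [Fin.revPerm_apply]
    have h3 : ∑ j : Fin q, u j * (b⁻¹) ^ ((Fin.rev j : Fin q) : ℕ) =
        (b⁻¹) ^ (q - 1) * ∑ j : Fin q, u j * b ^ (j : ℕ) := by
      rw [Finset.mul_sum]
      apply Finset.sum_congr rfl
      intro j _
      have hj : q - 1 = ((Fin.rev j : Fin q) : ℕ) + (j : ℕ) := by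
        rw [Fin.val_rev]
        have := j.2
        omega
      rw [hj, pow_add]
      have : (b⁻¹) ^ (j : ℕ) * b ^ (j : ℕ) = 1 := by
        rw [← mul_pow, inv_mul_cancel₀ hb, one_pow]
      calc u j * b⁻¹ ^ ((Fin.rev j : Fin q) : ℕ)
          = u j * b⁻¹ ^ ((Fin.rev j : Fin q) : ℕ) * ((b⁻¹) ^ (j : ℕ) * b ^ (j : ℕ)) := by
            rw [this, mul_one]
        _ = _ := by ring
    rw [h2, h3, hsum, mul_zero]
  have hall := HIndepB_key q hq c h.c_ne a b⁻¹ h.trans hβ (fun j => u (Fin.rev j))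
    (fun j => hu _) hsum'
  intro j
  have := hall (Fin.rev j)
  simpa using this

end IsHCurve

end Fermat.Agent.S36.Geo
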