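import Fermat.Agent.S36.Geo.HIndepA
import Fermat.Agent.S36.Geo.HIndepB

/-!
# S36/Geo/HIndep : the monomials `a^i b^j` are a basis over `k(y)`; `Fb = k(a,b)` is a function field
-/

set_option autoImplicit false
set_option linter.unusedSectionVars false

namespace Fermat.Agent.S36.Geo

open AlgebraicCurve Fermat.Agent.Lib.RR IntermediateField Polynomial

variable {k Fb : Type*} [Field k] [Field Fb] [Algebra k Fb]
variable {q : ℕ} [Fact q.Prime] [CharP k q] {c : k} {a b : Fb}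

/-- (aux) degree of a simple extension from a monic equation and independence of the powers. -/
theorem HIndep_finrank_adjoin {K' E : Type*} [Field K'] [Field E] [Algebra K' E] (x : E) (n : ℕ)
    (P : K'[X]) (hP : P.Monic) (hdeg : P.natDegree = n) (hroot : aeval x P = 0)
    (hind : ∀ u : Fin n → K', ∑ i, algebraMap K' E (u i) * x ^ (i : ℕ) = 0 → ∀ i, u i = 0) :
    Module.finrank K' K'⟮x⟯ = n := by
  have hint : IsIntegral K' x := ⟨P, hP, hroot⟩
  rw [IntermediateField.adjoin.finrank hint]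
  apply le_antisymm
  · rw [← hdeg]
    exact natDegree_le_natDegree (minpoly.min K' x hP hroot)
  · by_contra hlt
    push Not at hlt
    have h0 : aeval x (minpoly K' x) = 0 := minpoly.aeval K' x
    rw [aeval_eq_sum_range' hlt] at h0
    have h1 := hind (fun i => (minpoly K' x).coeff i) (by
      rw [← h0, Finset.sum_range]
      simp [Algebra.smul_def])
    have h2 : minpoly K' x = 0 := by
      ext i
      by_cases hi : i < n
      · exact h1 ⟨i, hi⟩
      · rw [coeff_zero]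
        exact coeff_eq_zero_of_natDegree_lt (by omega)
    exact minpoly.ne_zero hint h2

/-- (aux) an intermediate field containing `k`, `a`, `b` is everything. -/
theorem HIndep_eq_top_of (hgen : k⟮a, b⟯ = ⊤) {K' : Type*} [Field K'] [Algebra K' Fb]
    (M : IntermediateField K' Fb) (hk : ∀ z : k, algebraMap k Fb z ∈ M) (ha : a ∈ M) (hb : b ∈ M) :
    M = ⊤ := by
  rw [eq_top_iff]
  intro x _
  have hx : x ∈ (k⟮a, b⟯).toSubfield := by
    rw [hgen]
    trivial
  refine (adjoin_le_subfield (F := k) (S := {a, b}) (K := M.toSubfield) ?_ ?_) hx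
  · rintro _ ⟨z, rfl⟩
    exact hk z
  · intro z hz
    rcases hz with rfl | hz
    · exact ha
    · rw [Set.mem_singleton_iff.1 hz]
      exact hb

namespace IsHCurve

theorem HIndep_y_mem (h : IsHCurve k q c a b) : h.y ∈ k⟮a⟯ := by
  unfold IsHCurve.y
  exact add_mem (pow_mem (mem_adjoin_simple_self k a) q)
    (div_mem (IntermediateField.algebraMap_mem _ c) (mem_adjoin_simple_self k a))

theorem HIndep_le (h : IsHCurve k q c a b) : k⟮h.y⟯ ≤ k⟮a⟯ :=
  adjoin_simple_le_iff.2 h.HIndep_y_mem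

/-- (C3) the `a^i b^j` are linearly independent over `k(y)`. -/
theorem indep (h : IsHCurve k q c a b) (u : Fin (q + 1) × Fin q → Fb) (hu : ∀ ij, u ij ∈ k⟮h.y⟯)
    (hsum : ∑ ij, u ij * (a ^ (ij.1 : ℕ) * b ^ (ij.2 : ℕ)) = 0) : ∀ ij, u ij = 0 := by
  have h1 : ∑ j : Fin q, (∑ i : Fin (q + 1), u (i, j) * a ^ (i : ℕ)) * b ^ (j : ℕ) = 0 := by
    rw [← hsum, Fintype.sum_prod_type_right]
    refine Finset.sum_congr rfl fun j _ => ?_
    rw [Finset.sum_mul]
    refine Finset.sum_congr rfl fun i _ => ?_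
    ring
  have h2 := h.indep_b (fun j => ∑ i : Fin (q + 1), u (i, j) * a ^ (i : ℕ)) (fun j =>
    sum_mem fun i _ => mul_mem (h.HIndep_le (hu _)) (pow_mem (mem_adjoin_simple_self k a) _)) h1
  rintro ⟨i, j⟩
  exact h.indep_a (fun i => u (i, j)) (fun i => hu _) (h2 j) i

end IsHCurve

namespace IsHCurve

/-- (aux) `[K'(b) : K'] = q` for every field `K'` between `k(a)`... (image in `k(a)`, containing `a`
and `c / a`). -/
theorem HIndep_finrank_b (h : IsHCurve k q c a b) (K' : Type*) [Field K'] [Algebra K' Fb]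
    (hK' : ∀ x : K', algebraMap K' Fb x ∈ k⟮a⟯) (α : K') (hα : algebraMap K' Fb α = a)
    (γ : K') (hγ : algebraMap K' Fb γ = algebraMap k Fb c / a) :
    Module.finrank K' K'⟮b⟯ = q := by
  have hq : 0 < q := (Fact.out : q.Prime).pos
  have hm : (X * (X - C α) ^ (q - 1) : K'[X]).Monic := monic_X.mul ((monic_X_sub_C α).pow _)
  have hd : (X * (X - C α) ^ (q - 1) : K'[X]).natDegree = q := by
    rw [monic_X.natDegree_mul ((monic_X_sub_C α).pow _), natDegree_X,
      (monic_X_sub_C α).natDegree_pow, natDegree_X_sub_C]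
    omega
  apply HIndep_finrank_adjoin b q (X * (X - C α) ^ (q - 1) - C γ)
  · apply hm.sub_of_left
    rw [degree_eq_natDegree hm.ne_zero, hd]
    exact lt_of_le_of_lt degree_C_le (by exact_mod_cast hq)
  · rw [natDegree_sub_C, hd]
  · simp only [map_sub, map_mul, map_pow, aeval_X, aeval_C, hα, hγ]
    rw [← h.rel]
    field_simp [h.a_ne]
    ring
  · intro u hu j
    have h1 := h.indep_b (fun j => algebraMap K' Fb (u j)) (fun j => hK' _) hu j
    exact (map_eq_zero _).1 h1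

/-- (aux) `[k(y)(a) : k(y)] = q + 1`. -/
theorem HIndep_finrank_a (h : IsHCurve k q c a b) :
    Module.finrank k⟮h.y⟯ (k⟮h.y⟯)⟮a⟯ = q + 1 := by
  have hq : 0 < q := (Fact.out : q.Prime).pos
  let Y : k⟮h.y⟯ := ⟨h.y, mem_adjoin_simple_self k h.y⟩
  have hlt : (C Y * X - C (algebraMap k k⟮h.y⟯ c) : (k⟮h.y⟯)[X]).degree < ((q + 1 : ℕ) : WithBot ℕ) := by
    refine lt_of_le_of_lt (degree_sub_le _ _) (max_lt ?_ ?_)
    · exact lt_of_le_of_lt (degree_C_mul_X_le _) (by exact_mod_cast (by omega : 1 < q + 1))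
    · exact lt_of_le_of_lt degree_C_le (by exact_mod_cast (by omega : 0 < q + 1))
  apply HIndep_finrank_adjoin a (q + 1) (X ^ (q + 1) - (C Y * X - C (algebraMap k k⟮h.y⟯ c)))
  · exact monic_X_pow_sub hlt
  · apply natDegree_eq_of_degree_eq_some
    rw [degree_sub_eq_left_of_degree_lt (by rw [degree_X_pow]; exact hlt), degree_X_pow]
  · simp only [map_sub, map_mul, map_pow, aeval_X, aeval_C]
    have h1 := h.eq_a
    have e1 : algebraMap k⟮h.y⟯ Fb Y = h.y := rfl
    have e2 : algebraMap k⟮h.y⟯ Fb (algebraMap k k⟮h.y⟯ c) = algebraMap k Fb c := rfl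
    rw [e1, e2]
    linear_combination h1
  · intro u hu i
    have h1 := h.indep_a (fun i => (u i : Fb)) (fun i => (u i).2) hu i
    exact Subtype.ext h1

end IsHCurve

/-! ### The function field -/

section FF

variable [IsAlgClosed k]

namespace IsHCurve

theorem adjoin_t_b (h : IsHCurve k q c a b) (hgen : k⟮a, b⟯ = ⊤) : (k⟮h.t⟯)⟮b⟯ = ⊤ := by
  apply HIndep_eq_top_of hgen
  · intro z
    exact IntermediateField.algebraMap_mem _ (algebraMap k k⟮h.t⟯ z)
  · have h1 : a = h.t * b := by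
      unfold IsHCurve.t
      field_simp [h.b_ne]
    have h2 : h.t * b ∈ (k⟮h.t⟯)⟮b⟯ := mul_mem (IntermediateField.algebraMap_mem _
      (⟨h.t, mem_adjoin_simple_self k h.t⟩ : k⟮h.t⟯)) (mem_adjoin_simple_self _ b)
    have h3 : ∀ z : Fb, z = h.t * b → z ∈ (k⟮h.t⟯)⟮b⟯ := by
      rintro z rfl
      exact h2
    exact h3 a h1
  · exact mem_adjoin_simple_self _ b

/-- (aux) the Kummer equation of `b` over `k(t)`. -/
theorem HIndep_exists_kummer (h : IsHCurve k q c a b) :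
    ∃ w : k⟮h.t⟯, w ≠ 0 ∧ aeval b (X ^ (q + 1) - C w : (k⟮h.t⟯)[X]) = 0 := by
  have ht := h.eq_t
  have hc : algebraMap k Fb c ≠ 0 := (_root_.map_ne_zero _).2 h.c_ne
  have hne : h.t * (1 - h.t) ^ (q - 1) ≠ 0 := by
    intro h0
    rw [h0, zero_mul] at ht
    exact hc ht.symm
  have hmem : algebraMap k Fb c / (h.t * (1 - h.t) ^ (q - 1)) ∈ k⟮h.t⟯ :=
    div_mem (IntermediateField.algebraMap_mem _ c) (mul_mem (mem_adjoin_simple_self k h.t)
      (pow_mem (sub_mem (one_mem _) (mem_adjoin_simple_self k h.t)) _))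
  refine ⟨⟨_, hmem⟩, ?_, ?_⟩
  · intro h0
    have h1 := congrArg Subtype.val h0
    exact div_ne_zero hc hne h1
  · simp only [map_sub, map_pow, aeval_X, aeval_C]
    have e1 : algebraMap k⟮h.t⟯ Fb ⟨_, hmem⟩ = algebraMap k Fb c / (h.t * (1 - h.t) ^ (q - 1)) := rfl
    rw [e1, ← ht, mul_div_cancel_left₀ _ hne, sub_self]

theorem finiteDimensional_t (h : IsHCurve k q c a b) (hgen : k⟮a, b⟯ = ⊤) :
    FiniteDimensional k⟮h.t⟯ Fb := by
  obtain ⟨w, -, hw⟩ := h.HIndep_exists_kummer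
  have hint : IsIntegral k⟮h.t⟯ b := ⟨_, monic_X_pow_sub_C w (Nat.succ_ne_zero q), hw⟩
  have h1 := IntermediateField.adjoin.finiteDimensional hint
  rw [h.adjoin_t_b hgen] at h1
  exact (IntermediateField.topEquiv (F := k⟮h.t⟯) (E := Fb)).toLinearEquiv.finiteDimensional

/-- `b` is a root of the separable polynomial `X^(q+1) - c/(t (1-t)^(q-1))` (`q + 1 ≠ 0` in `k`). -/
theorem isSeparable_t (h : IsHCurve k q c a b) (hgen : k⟮a, b⟯ = ⊤) :
    Algebra.IsSeparable k⟮h.t⟯ Fb := by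
  obtain ⟨w, hw0, hw⟩ := h.HIndep_exists_kummer
  have hq1 : ((q + 1 : ℕ) : k⟮h.t⟯) ≠ 0 := by
    have e : ((q + 1 : ℕ) : k⟮h.t⟯) = algebraMap k k⟮h.t⟯ ((q + 1 : ℕ) : k) := (map_natCast _ _).symm
    rw [e, Nat.cast_add, CharP.cast_eq_zero k q, zero_add, Nat.cast_one, map_one]
    exact one_ne_zero
  have hsep : (X ^ (q + 1) - C w : (k⟮h.t⟯)[X]).Separable := separable_X_pow_sub_C w hq1 hw0
  have hb : IsSeparable k⟮h.t⟯ b := hsep.of_dvd (minpoly.dvd _ _ hw)
  have h1 := (IntermediateField.isSeparable_adjoin_simple_iff_isSeparable k⟮h.t⟯ Fb).2 hb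
  rw [h.adjoin_t_b hgen] at h1
  exact AlgEquiv.Algebra.isSeparable (IntermediateField.topEquiv (F := k⟮h.t⟯) (E := Fb))

theorem isFF (h : IsHCurve k q c a b) (hgen : k⟮a, b⟯ = ⊤) : IsFF k Fb := by
  have := h.finiteDimensional_t hgen
  have := h.isSeparable_t hgen
  exact Fermat.Agent.GAL.FF.isFF_of_separable h.t h.trans_t

theorem finrank_a (h : IsHCurve k q c a b) (hgen : k⟮a, b⟯ = ⊤) :
    Module.finrank k⟮a⟯ Fb = q := by
  have htop : (k⟮a⟯)⟮b⟯ = ⊤ := by
    apply HIndep_eq_top_of hgen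
    · intro z
      exact IntermediateField.algebraMap_mem _ (algebraMap k k⟮a⟯ z)
    · exact IntermediateField.algebraMap_mem _ (⟨a, mem_adjoin_simple_self k a⟩ : k⟮a⟯)
    · exact mem_adjoin_simple_self _ b
  have h1 := h.HIndep_finrank_b k⟮a⟯ (fun x => x.2) ⟨a, mem_adjoin_simple_self k a⟩ rfl
    ⟨algebraMap k Fb c / a, div_mem (IntermediateField.algebraMap_mem _ c)
      (mem_adjoin_simple_self k a)⟩ rfl
  rw [htop, IntermediateField.finrank_top'] at h1
  exact h1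

/-- from `indep` (lower bound) and `eq_a`, `eq_b`/`rel` (the `a^i b^j` span). -/
theorem finrank_y (h : IsHCurve k q c a b) (hgen : k⟮a, b⟯ = ⊤) :
    Module.finrank k⟮h.y⟯ Fb = q * (q + 1) := by
  have ha : a ∈ (k⟮h.y⟯)⟮a⟯ := mem_adjoin_simple_self _ a
  have hkm : ∀ z : k, algebraMap k Fb z ∈ (k⟮h.y⟯)⟮a⟯ := fun z =>
    IntermediateField.algebraMap_mem _ (algebraMap k k⟮h.y⟯ z)
  have htop : ((k⟮h.y⟯)⟮a⟯)⟮b⟯ = ⊤ := by
    apply HIndep_eq_top_of hgen
    · intro z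
      exact IntermediateField.algebraMap_mem _ (⟨_, hkm z⟩ : (k⟮h.y⟯)⟮a⟯)
    · exact IntermediateField.algebraMap_mem _ (⟨a, ha⟩ : (k⟮h.y⟯)⟮a⟯)
    · exact mem_adjoin_simple_self _ b
  have hsub : ∀ x : (k⟮h.y⟯)⟮a⟯, algebraMap (k⟮h.y⟯)⟮a⟯ Fb x ∈ k⟮a⟯ := by
    intro x
    refine (adjoin_le_subfield (F := k⟮h.y⟯) (S := {a}) (K := (k⟮a⟯).toSubfield) ?_ ?_) x.2
    · rintro _ ⟨z, rfl⟩
      exact h.HIndep_le z.2
    · intro z hz
      rw [Set.mem_singleton_iff.1 hz]
      exact mem_adjoin_simple_self k a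
  have h1 := h.HIndep_finrank_b (k⟮h.y⟯)⟮a⟯ hsub ⟨a, ha⟩ rfl
    ⟨algebraMap k Fb c / a, div_mem (hkm c) ha⟩ rfl
  rw [htop, IntermediateField.finrank_top'] at h1
  rw [← Module.finrank_mul_finrank k⟮h.y⟯ (k⟮h.y⟯)⟮a⟯ Fb, h.HIndep_finrank_a, h1, mul_comm]

theorem finiteDimensional_y (h : IsHCurve k q c a b) (hgen : k⟮a, b⟯ = ⊤) :
    FiniteDimensional k⟮h.y⟯ Fb := by
  apply FiniteDimensional.of_finrank_pos
  rw [h.finrank_y hgen]
  have hq : 0 < q := (Fact.out : q.Prime).pos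
  positivity

end IsHCurve

end FF

end Fermat.Agent.S36.Geo
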