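import Fermat.Agent.DR.Conc.AL
import Fermat.Agent.GAL.Hecke.DegreeAlpha
import Fermat.Agent.GAL.Hecke.NormAbs

/-!
# S36/Geo : the glueing lemma for the function field of `X₀(M q²)`

`F0 = FN M`, `F1 = FN (M q)`, `F2 = FN (M q q)`, `q ∤ M` prime;
`a1, b1 : F0 → F1`, `a2, b2 : F1 → F2` the degeneracy maps (`a = ` inclusion, `b = (t ↦ t^q)`).
`F2` is generated by `a2 F1` and `b2 F1`, and `a2 ∘ b1 = b2 ∘ a1`.

**Glueing lemma** (moduli interpretation: `X₀(q²) = {(E; C₁ ≠ C₂)}`).  Let `w : F1 → F1` be a ring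
endomorphism with `w ∘ a1 = b1` (Atkin-Lehner).  For every algebraically closed field `Ω` and all
embeddings `a, e : F1 → Ω` with `e ∘ a1 = a ∘ b1` and `e ≠ a ∘ w` there is a unique `σ : F2 → Ω`
with `σ ∘ a2 = a`, `σ ∘ b2 = e`.

PROOF (counting).  There are `[F2 : a2 F1] = q` embeddings `σ` with `σ ∘ a2 = a`; `σ ↦ σ ∘ b2` is
injective (generation) with values in `H = {e : e ∘ a1 = a ∘ b1}`, a set with `[F1 : a1 F0] = q + 1`
elements which contains `a ∘ w`; the value `a ∘ w` is not taken (otherwise `σ F2 ⊆ a F1`, so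
`a⁻¹ ∘ σ : F2 → F1` is an `F1`-linear injection, `q ≤ 1`).  So `σ ↦ σ ∘ b2` is onto `H \ {a ∘ w}`.
-/

set_option autoImplicit false
set_option linter.unusedSectionVars false

noncomputable section

namespace Fermat.Agent.S36.Geo

open ModularCurve AlgebraicCurve Fermat.Agent.S24 Fermat.Agent.GAL

/-- abstract exclusion step. -/
theorem Glue_abs_ne {F1 F2 L : Type*} [Field F1] [Field F2] [Field L] [CharZero F1]
    (a2 b2 : F1 →+* F2) (q : ℕ) (hq : 2 ≤ q)
    (h2 : @Module.finrank F1 F2 _ _ a2.toAlgebra.toModule = q)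
    (hgen : ∀ f g : F2 →+* AlgebraicClosure F2, (∀ x, f (a2 x) = g (a2 x)) →
      (∀ x, f (b2 x) = g (b2 x)) → f = g)
    (w : F1 →+* F1) (σ : F2 →+* L) : σ.comp b2 ≠ (σ.comp a2).comp w := by
  classical
  intro hcon
  have hb : ∀ x, b2 x = a2 (w x) := fun x => σ.injective (by
    have := congrArg (fun f : F1 →+* L => f x) hcon
    exact this)
  let algF2 : Algebra F1 F2 := a2.toAlgebra
  let algΩ : Algebra F1 (AlgebraicClosure F2) :=
    ((algebraMap F2 (AlgebraicClosure F2)).comp a2).toAlgebra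
  have : FiniteDimensional F1 F2 := Module.finite_of_finrank_pos (by rw [h2]; omega)
  have hcard : Fintype.card (F2 →ₐ[F1] AlgebraicClosure F2) = q := by
    rw [AlgHom.card, h2]
  have hsub : Subsingleton (F2 →ₐ[F1] AlgebraicClosure F2) := by
    constructor
    intro f g
    have hfg : (f : F2 →+* AlgebraicClosure F2) = g := by
      have h1 : ∀ x, (f : F2 →+* AlgebraicClosure F2) (a2 x) = (g : F2 →+* AlgebraicClosure F2) (a2 x) :=
        fun x => (f.commutes x).trans (g.commutes x).symm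
      refine hgen _ _ h1 fun x => ?_
      rw [hb]
      exact h1 (w x)
    exact AlgHom.coe_ringHom_injective hfg
  have := Fintype.card_le_one_iff_subsingleton.2 hsub
  omega

/-- abstract glueing lemma (existence). -/
theorem Glue_abs_exists {F0 F1 F2 Ω : Type*} [Field F0] [Field F1] [Field F2] [Field Ω]
    [CharZero F0] [IsAlgClosed Ω]
    (a1 b1 : F0 →+* F1) (a2 b2 : F1 →+* F2) (q : ℕ) (hq : 0 < q)
    (hcomm : ∀ u, a2 (b1 u) = b2 (a1 u))
    (h2 : @Module.finrank F1 F2 _ _ a2.toAlgebra.toModule = q)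
    (h1 : @Module.finrank F0 F1 _ _ a1.toAlgebra.toModule = q + 1)
    (hgen : ∀ f g : F2 →+* Ω, (∀ x, f (a2 x) = g (a2 x)) → (∀ x, f (b2 x) = g (b2 x)) → f = g)
    (w : F1 →+* F1) (hw : ∀ u, w (a1 u) = b1 u)
    (hex : ∀ σ : F2 →+* Ω, σ.comp b2 ≠ (σ.comp a2).comp w)
    (a e : F1 →+* Ω) (h : ∀ u, e (a1 u) = a (b1 u)) (hne : e ≠ a.comp w) :
    ∃ σ : F2 →+* Ω, (∀ x, σ (a2 x) = a x) ∧ (∀ x, σ (b2 x) = e x) := by
  classical
  have : CharZero F1 := charZero_of_injective_ringHom a1.injective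
  let algF2 : Algebra F1 F2 := a2.toAlgebra
  let algΩ1 : Algebra F1 Ω := a.toAlgebra
  let algF1 : Algebra F0 F1 := a1.toAlgebra
  let algΩ0 : Algebra F0 Ω := (a.comp b1).toAlgebra
  have : FiniteDimensional F1 F2 := Module.finite_of_finrank_pos (by rw [h2]; exact hq)
  have : FiniteDimensional F0 F1 := Module.finite_of_finrank_pos (by rw [h1]; omega)
  have cS : Fintype.card (F2 →ₐ[F1] Ω) = q := by rw [AlgHom.card, h2]
  have cH : Fintype.card (F1 →ₐ[F0] Ω) = q + 1 := by rw [AlgHom.card, h1]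
  let Φ : (F2 →ₐ[F1] Ω) → (F1 →ₐ[F0] Ω) := fun σ =>
    { ((σ : F2 →+* Ω).comp b2) with
      commutes' := fun u => by
        show σ (b2 (a1 u)) = a (b1 u)
        rw [← hcomm]
        exact σ.commutes (b1 u) }
  have hΦ : ∀ (σ : F2 →ₐ[F1] Ω) (x : F1), Φ σ x = σ (b2 x) := fun _ _ => rfl
  have hinj : Function.Injective Φ := by
    intro σ σ' hσ
    have hfg : (σ : F2 →+* Ω) = σ' := by
      refine hgen _ _ (fun x => (σ.commutes x).trans (σ'.commutes x).symm) fun x => ?_
      have := congrArg (fun f : F1 →ₐ[F0] Ω => f x) hσ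
      exact this
    exact AlgHom.coe_ringHom_injective hfg
  let e0 : F1 →ₐ[F0] Ω :=
    { (a.comp w) with
      commutes' := fun u => by
        show a (w (a1 u)) = a (b1 u)
        rw [hw] }
  let e' : F1 →ₐ[F0] Ω :=
    { e with commutes' := fun u => h u }
  have he0 : ∀ σ, Φ σ ≠ e0 := by
    intro σ hσ
    apply hex (σ : F2 →+* Ω)
    ext x
    have h3 := congrArg (fun f : F1 →ₐ[F0] Ω => f x) hσ
    have h4 : σ (b2 x) = a (w x) := h3
    show σ (b2 x) = σ (a2 (w x))
    rw [h4]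
    exact (σ.commutes (w x)).symm
  have hee : e' ≠ e0 := by
    intro hc
    apply hne
    ext x
    exact congrArg (fun f : F1 →ₐ[F0] Ω => f x) hc
  by_contra hcon
  have he' : ∀ σ, Φ σ ≠ e' := by
    intro σ hσ
    apply hcon
    refine ⟨(σ : F2 →+* Ω), fun x => σ.commutes x, fun x => ?_⟩
    exact congrArg (fun f : F1 →ₐ[F0] Ω => f x) hσ
  have hsub : Finset.univ.image Φ ⊆ (Finset.univ.erase e0).erase e' := by
    intro f hf
    obtain ⟨σ, -, rfl⟩ := Finset.mem_image.1 hf
    exact Finset.mem_erase.2 ⟨he' σ, Finset.mem_erase.2 ⟨he0 σ, Finset.mem_univ _⟩⟩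
  have hc := Finset.card_le_card hsub
  rw [Finset.card_image_of_injective _ hinj, Finset.card_univ, cS,
    Finset.card_erase_of_mem (Finset.mem_erase.2 ⟨hee, Finset.mem_univ _⟩),
    Finset.card_erase_of_mem (Finset.mem_univ _), Finset.card_univ, cH] at hc
  omega

variable (M q : ℕ) [NeZero M] [NeZero q]

/-- `α : FN M → FN (M q)`. -/
abbrev a1 : FN M →ₐ[Kbar] FN (M * q) := heckeAlphaBar Kbar M q
/-- `β : FN M → FN (M q)`. -/
abbrev b1 : FN M →ₐ[Kbar] FN (M * q) := heckeBetaBar Kbar M q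
/-- `α : FN (M q) → FN (M q q)`. -/
abbrev a2 : FN (M * q) →ₐ[Kbar] FN (M * q * q) := heckeAlphaBar Kbar (M * q) q
/-- `β : FN (M q) → FN (M q q)`. -/
abbrev b2 : FN (M * q) →ₐ[Kbar] FN (M * q * q) := heckeBetaBar Kbar (M * q) q

theorem a2_b1 (u : FN M) : a2 M q (b1 M q u) = b2 M q (a1 M q u) := by
  apply Subtype.ext
  rw [coe_heckeAlphaBar, coe_heckeBetaBar, coe_heckeBetaBar, coe_heckeAlphaBar]

/-- **Leaf G1.** `[FN (M q q) : α (FN (M q))] = q`.
PROOF. as `DegreeAlpha.finrank_alpha`, with `Lib.Gamma0Count.dedekindPsi_prime_mul_of_dvd`. -/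
theorem finrank_a2 (hq : q.Prime) :
    @Module.finrank (FN (M * q)) (FN (M * q * q)) _ _ (algebraAlong (a2 M q)).toModule = q := by
  have h1 := DegreeAlpha.finrank_tower (a2 M q) (jF (M * q))
  have h2 : dedekindPsi (M * q * q) = q * dedekindPsi (M * q) := by
    rw [mul_comm (M * q) q,
      Fermat.Agent.Lib.Gamma0Count.dedekindPsi_prime_mul_of_dvd hq (NeZero.ne (M * q))
        (dvd_mul_left q M)]
  rw [DegreeAlpha.alpha_jF, DegreeAlpha.finrank_jF, DegreeAlpha.finrank_jF, h2, mul_comm] at h1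
  exact Nat.eq_of_mul_eq_mul_right (DegreeAlpha.dedekindPsi_pos (M * q)) h1

/-- two ring homomorphisms out of `FN (M q q)` which agree on `a2` and on `b2` are equal. -/
theorem ringHom_ext_a2_b2 (hq : q.Prime) {R : Type*} [Field R] (f g : FN (M * q * q) →+* R)
    (hα : ∀ x : FN (M * q), f (a2 M q x) = g (a2 M q x))
    (hβ : ∀ x : FN (M * q), f (b2 M q x) = g (b2 M q x)) : f = g := by
  refine DR.Conc.algHom_ext_alpha_beta (M * q) q hq f g (fun c => ?_) hα hβ
  have := hα (algebraMap Kbar _ c)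
  rwa [AlgHom.commutes] at this

/-- **Leaf G2 (the glueing lemma).** See the header for the proof.  Tools: `AlgHom.card`
(`Fintype.card (F' →ₐ[F] Ω) = finrank F F'`, characteristic zero so everything is separable), with
the algebra structures `algebraAlong (a2 M q)`, `algebraAlong (a1 M q)`, `a.toAlgebra`,
`(a.comp (b1 M q)).toAlgebra`; `finrank_a2`, `DegreeAlpha.finrank_alpha`, `ringHom_ext_a2_b2`,
`a2_b1`; `Finset.card`/`Fintype.card` pigeonhole (`Function.Injective.bijective_of_nat_card_le` or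
`Fintype.bijective_iff_injective_and_card` on the subtype `{e // e ≠ a ∘ w}`). -/
theorem exists_unique_glue (hq : q.Prime) (hqM : ¬ q ∣ M)
    (w : FN (M * q) →+* FN (M * q)) (hw : ∀ u : FN M, w (a1 M q u) = b1 M q u)
    {Ω : Type*} [Field Ω] [IsAlgClosed Ω] (a e : FN (M * q) →+* Ω)
    (h : ∀ u : FN M, e (a1 M q u) = a (b1 M q u)) (hne : e ≠ a.comp w) :
    ∃! σ : FN (M * q * q) →+* Ω,
      (∀ x : FN (M * q), σ (a2 M q x) = a x) ∧ (∀ x : FN (M * q), σ (b2 M q x) = e x) := by
  obtain ⟨σ, h1, h2⟩ := Glue_abs_exists (a1 M q : FN M →+* FN (M * q)) (b1 M q : FN M →+* FN (M * q))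
    (a2 M q : FN (M * q) →+* FN (M * q * q)) (b2 M q : FN (M * q) →+* FN (M * q * q)) q hq.pos
    (a2_b1 M q) (finrank_a2 M q hq) (DegreeAlpha.finrank_alpha M q hq hqM)
    (ringHom_ext_a2_b2 M q hq) w hw
    (fun σ => Glue_abs_ne (a2 M q : FN (M * q) →+* FN (M * q * q))
      (b2 M q : FN (M * q) →+* FN (M * q * q)) q hq.two_le (finrank_a2 M q hq)
      (ringHom_ext_a2_b2 M q hq) w σ) a e h hne
  refine ⟨σ, ⟨h1, h2⟩, ?_⟩
  rintro σ' ⟨h1', h2'⟩
  exact ringHom_ext_a2_b2 M q hq _ _ (fun x => (h1' x).trans (h1 x).symm)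
    (fun x => (h2' x).trans (h2 x).symm)

/-- **Leaf G3.** The glueing lemma with values in an arbitrary field `L` (e.g. `Kbar((t))`).
PROOF. Apply `exists_unique_glue` with `Ω = AlgebraicClosure L`; the subfield
`(algebraMap L Ω).fieldRange.comap σ` of `FN (M q q)` contains the constants and all generators
`FNAdjoin.jd` (each of them is `a2` or `b2` of a generator: `AtkinLehner.dvd_cases`, `alpha_jd`,
`beta_jd`), hence is `⊤` (`FNAdjoin.adjoin_gensF` or `FNAdjoin.exists_div` + `A_induction`); so `σ`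
factors through `L`.  Uniqueness: `ringHom_ext_a2_b2`. -/
theorem exists_unique_glue' (hq : q.Prime) (hqM : ¬ q ∣ M)
    (w : FN (M * q) →+* FN (M * q)) (hw : ∀ u : FN M, w (a1 M q u) = b1 M q u)
    {L : Type*} [Field L] (a e : FN (M * q) →+* L)
    (h : ∀ u : FN M, e (a1 M q u) = a (b1 M q u)) (hne : e ≠ a.comp w) :
    ∃! σ : FN (M * q * q) →+* L,
      (∀ x : FN (M * q), σ (a2 M q x) = a x) ∧ (∀ x : FN (M * q), σ (b2 M q x) = e x) := by
  have hchar : CharZero L := charZero_of_injective_ringHom a.injective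
  have hinj : Function.Injective (algebraMap L (AlgebraicClosure L)) :=
    (algebraMap L (AlgebraicClosure L)).injective
  obtain ⟨σ, ⟨hσa, hσb⟩, -⟩ := exists_unique_glue M q hq hqM w hw
    ((algebraMap L (AlgebraicClosure L)).comp a) ((algebraMap L (AlgebraicClosure L)).comp e)
    (fun u => by rw [RingHom.comp_apply, RingHom.comp_apply, h u])
    (fun hc => hne (RingHom.ext fun x => hinj (by
      have := congrArg (fun f : FN (M * q) →+* AlgebraicClosure L => f x) hc
      exact this)))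
  have hr : ∀ x, ∃ y : L, algebraMap L (AlgebraicClosure L) y = σ x := by
    intro x
    refine (InfiniteGalois.mem_range_algebraMap_iff_fixed (σ x)).mpr fun τ => ?_
    have hτ : ((τ : AlgebraicClosure L ≃+* AlgebraicClosure L) :
        AlgebraicClosure L →+* AlgebraicClosure L).comp σ = σ := by
      refine ringHom_ext_a2_b2 M q hq _ _ (fun z => ?_) (fun z => ?_)
      · show τ (σ (a2 M q z)) = σ (a2 M q z)
        rw [hσa, RingHom.comp_apply, AlgEquiv.commutes]
      · show τ (σ (b2 M q z)) = σ (b2 M q z)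
        rw [hσb, RingHom.comp_apply, AlgEquiv.commutes]
    exact congrArg (fun f : FN (M * q * q) →+* AlgebraicClosure L => f x) hτ
  choose g hg using hr
  refine ⟨{ toFun := g
            map_one' := hinj (by rw [hg, map_one, map_one])
            map_mul' := fun x y => hinj (by rw [hg, map_mul, map_mul, hg, hg])
            map_zero' := hinj (by rw [hg, map_zero, map_zero])
            map_add' := fun x y => hinj (by rw [hg, map_add, map_add, hg, hg]) }, ⟨?_, ?_⟩, ?_⟩
  · intro x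
    apply hinj
    show algebraMap L (AlgebraicClosure L) (g (a2 M q x)) = _
    rw [hg, hσa, RingHom.comp_apply]
  · intro x
    apply hinj
    show algebraMap L (AlgebraicClosure L) (g (b2 M q x)) = _
    rw [hg, hσb, RingHom.comp_apply]
  · rintro σ' ⟨h1, h2⟩
    refine ringHom_ext_a2_b2 M q hq _ _ (fun z => ?_) (fun z => ?_)
    · rw [h1]
      apply hinj
      show _ = algebraMap L (AlgebraicClosure L) (g (a2 M q z))
      rw [hg, hσa, RingHom.comp_apply]
    · rw [h2]
      apply hinj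
      show _ = algebraMap L (AlgebraicClosure L) (g (b2 M q z))
      rw [hg, hσb, RingHom.comp_apply]

/-- **Leaf G4.** Conversely every embedding of `FN (M q q)` is obtained by glueing: if `σ ∘ a2 = a`
then `σ ∘ b2 ≠ a ∘ w`.  (The exclusion step of the proof of `exists_unique_glue`.) -/
theorem comp_b2_ne (hq : q.Prime)
    (w : FN (M * q) →+* FN (M * q))
    {L : Type*} [Field L] (σ : FN (M * q * q) →+* L) :
    σ.comp (b2 M q : FN (M * q) →+* FN (M * q * q)) ≠
      (σ.comp (a2 M q : FN (M * q) →+* FN (M * q * q))).comp w :=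
  Glue_abs_ne (a2 M q : FN (M * q) →+* FN (M * q * q))
    (b2 M q : FN (M * q) →+* FN (M * q * q)) q hq.two_le (finrank_a2 M q hq)
    (ringHom_ext_a2_b2 M q hq) w σ

end Fermat.Agent.S36.Geo
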