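import Fermat.Agent.S36.Geo.Glue
import Fermat.Agent.S36.StepA.Defs

/-!
# S36/Geo : existence of `w_{q²}` and of the expansions at the middle cusps
(corollaries of the glueing lemma `exists_unique_glue'`).
-/

set_option autoImplicit false
set_option linter.unusedSectionVars false

noncomputable section

namespace Fermat.Agent.S36.Geo

open ModularCurve AlgebraicCurve Fermat.Agent.S24 Fermat.Agent.GAL Fermat.Agent.GAL.NormFormula
  Fermat.Agent.S36.StepA

variable {M q : ℕ} [NeZero M] [NeZero q]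

theorem wq_a1 (hq : q.Prime) (hqM : ¬ q ∣ M) (u : FN M) :
    DR.wq M q (heckeAlphaBar Kbar M q u) = heckeBetaBar Kbar M q u :=
  AlgHom.congr_fun (DR.wq_comp_alpha hq hqM) u

theorem wq_b1 (hq : q.Prime) (hqM : ¬ q ∣ M) (u : FN M) :
    DR.wq M q (heckeBetaBar Kbar M q u) = heckeAlphaBar Kbar M q u :=
  AlgHom.congr_fun (DR.wq_comp_beta hq hqM) u

/-- **The expansion at the middle cusp attached to a primitive `q`-th root of unity `ζ`.** -/
theorem exists_mid (hq : q.Prime) (hqM : ¬ q ∣ M) {ζ : Kbar} (hζ : IsPrimitiveRoot ζ q) :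
    ∃ ι : FN (M * q * q) →+* LaurentSeries Kbar, IsMid M q ζ (hζ.ne_zero hq.ne_zero) ι := by
  have hζ0 := hζ.ne_zero hq.ne_zero
  obtain ⟨σ, ⟨h1, h2⟩, -⟩ := exists_unique_glue' M q hq hqM
    (DR.wq M q : FN (M * q) →+* FN (M * q)) (fun u => wq_a1 hq hqM u)
    (valN (M * q))
    ((Fermat.Agent.S24.twist ζ hζ0).comp ((valN (M * q)).comp
      (DR.wq M q : FN (M * q) →+* FN (M * q))))
    (fun u => by
      show Fermat.Agent.S24.twist ζ hζ0
        ((DR.wq M q (heckeAlphaBar Kbar M q u) : FN (M * q)) : LaurentSeries Kbar) =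
          ((heckeBetaBar Kbar M q u : FN (M * q)) : LaurentSeries Kbar)
      rw [wq_a1 hq hqM, coe_heckeBetaBar, twist_qExpand q hζ0 hζ.pow_eq_one])
    (fun hcon => by
      have h := RingHom.congr_fun hcon (heckeBetaBar Kbar M q (jF M))
      have h' : Fermat.Agent.S24.twist ζ hζ0
          ((DR.wq M q (heckeBetaBar Kbar M q (jF M)) : FN (M * q)) : LaurentSeries Kbar) =
          ((DR.wq M q (heckeBetaBar Kbar M q (jF M)) : FN (M * q)) : LaurentSeries Kbar) := h
      rw [wq_b1 hq hqM, coe_heckeAlphaBar, coe_jF] at h'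
      have h2 := congrArg (fun s : LaurentSeries Kbar => s.coeff (-1)) h'
      simp only [Fermat.Agent.S24.twist_coeff, coeff_jK_neg_one, mul_one, zpow_neg_one] at h2
      have h3 : ζ = 1 := inv_eq_one.mp h2
      exact hq.one_lt.ne' (hζ.unique (h3 ▸ IsPrimitiveRoot.one)))
  exact ⟨σ, ⟨h1, h2⟩⟩

/-- **The Atkin-Lehner involution `w_{q²}`.** -/
theorem exists_W2 (hq : q.Prime) (hqM : ¬ q ∣ M) :
    ∃ W : FN (M * q * q) ≃ₐ[Kbar] FN (M * q * q), IsW2 M q W := by
  obtain ⟨σ, ⟨h1, h2⟩, -⟩ := exists_unique_glue' M q hq hqM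
    (DR.wq M q : FN (M * q) →+* FN (M * q)) (fun u => wq_a1 hq hqM u)
    (((b2 M q).comp (DR.wq M q) : FN (M * q) →ₐ[Kbar] FN (M * q * q)) :
      FN (M * q) →+* FN (M * q * q))
    (((a2 M q).comp (DR.wq M q) : FN (M * q) →ₐ[Kbar] FN (M * q * q)) :
      FN (M * q) →+* FN (M * q * q))
    (fun u => by
      show heckeAlphaBar Kbar (M * q) q (DR.wq M q (heckeAlphaBar Kbar M q u)) =
        heckeBetaBar Kbar (M * q) q (DR.wq M q (heckeBetaBar Kbar M q u))
      rw [wq_a1 hq hqM, wq_b1 hq hqM]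
      exact a2_b1 M q u)
    (fun hcon => by
      have h := RingHom.congr_fun hcon (heckeBetaBar Kbar M q (jF M))
      have h' : heckeAlphaBar Kbar (M * q) q (DR.wq M q (heckeBetaBar Kbar M q (jF M))) =
          heckeBetaBar Kbar (M * q) q (DR.wq M q (DR.wq M q (heckeBetaBar Kbar M q (jF M)))) := h
      rw [DR.wq_wq, wq_b1 hq hqM] at h'
      have h2 := congrArg (fun s : FN (M * q * q) => (s : LaurentSeries Kbar).coeff (-1)) h'
      simp only [coe_heckeAlphaBar, coe_heckeBetaBar, coe_jF, coeff_jK_neg_one] at h2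
      rw [qExpand_coeff_of_not_dvd q _ (by
        intro hd
        have h1 : (q : ℤ) ∣ 1 := (dvd_neg).mp hd
        have h2 : q ∣ 1 := by exact_mod_cast h1
        exact hq.one_lt.ne' (Nat.dvd_one.mp h2))] at h2
      exact one_ne_zero h2)
  have hσσ : σ.comp σ = RingHom.id _ := by
    refine ringHom_ext_a2_b2 M q hq _ _ (fun x => ?_) (fun x => ?_)
    · show σ (σ (a2 M q x)) = a2 M q x
      rw [h1]
      show σ (b2 M q (DR.wq M q x)) = _
      rw [h2]
      show a2 M q (DR.wq M q (DR.wq M q x)) = _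
      rw [DR.wq_wq]
    · show σ (σ (b2 M q x)) = b2 M q x
      rw [h2]
      show σ (a2 M q (DR.wq M q x)) = _
      rw [h1]
      show b2 M q (DR.wq M q (DR.wq M q x)) = _
      rw [DR.wq_wq]
  have hinv : ∀ y, σ (σ y) = y := fun y => RingHom.congr_fun hσσ y
  have hc : ∀ c : Kbar, σ (algebraMap Kbar _ c) = algebraMap Kbar _ c := by
    intro c
    have := h1 (algebraMap Kbar _ c)
    rw [AlgHom.commutes] at this
    rw [this]
    show b2 M q (DR.wq M q (algebraMap Kbar _ c)) = _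
    rw [AlgHom.commutes, AlgHom.commutes]
  let W : FN (M * q * q) ≃ₐ[Kbar] FN (M * q * q) :=
    { toFun := σ
      invFun := σ
      left_inv := hinv
      right_inv := hinv
      map_mul' := map_mul σ
      map_add' := map_add σ
      commutes' := hc }
  exact ⟨W, ⟨h1, h2, hinv⟩⟩

end Fermat.Agent.S36.Geo
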