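import Fermat.Agent.S36.Geo.HPlaces

/-!
# S36/Geo/HAut : the automorphisms `(a,b) ↦ (z a, z b)` of the curve `a b (b - a)^(q-1) = c`
-/

set_option autoImplicit false

namespace Fermat.Agent.S36.Geo

open AlgebraicCurve Fermat.Agent.Lib.RR IntermediateField Polynomial

variable {k Fb : Type*} [Field k] [Field Fb] [Algebra k Fb] [IsAlgClosed k] [IsFF k Fb]
variable {q : ℕ} [Fact q.Prime] [CharP k q] {c : k} {a b : Fb}

namespace IsHCurve

omit [IsAlgClosed k] [IsFF k Fb] in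
theorem HAut_pow_mem (h : IsHCurve k q c a b) : b ^ (q + 1) ∈ k⟮h.t⟯ := by
  have h1 := h.eq_t
  have h2 : h.t * (1 - h.t) ^ (q - 1) ≠ 0 := by
    intro h0
    rw [h0, zero_mul] at h1
    exact h.c_ne ((map_eq_zero _).1 h1.symm)
  have h3 : b ^ (q + 1) = algebraMap k Fb c / (h.t * (1 - h.t) ^ (q - 1)) := by
    rw [eq_div_iff h2, ← h1]; ring
  rw [h3]
  exact div_mem (IntermediateField.algebraMap_mem _ c) (mul_mem (mem_adjoin_simple_self k _)
    (pow_mem (sub_mem (one_mem _) (mem_adjoin_simple_self k _)) _))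

omit [Fact q.Prime] in
theorem HAut_exists_prim (k : Type*) [Field k] [IsAlgClosed k] (q : ℕ) [CharP k q] :
    ∃ ζ : k, IsPrimitiveRoot ζ (q + 1) := by
  have : NeZero ((q + 1 : ℕ) : k) :=
    ⟨by rw [Nat.cast_add, CharP.cast_eq_zero, zero_add, Nat.cast_one]; exact one_ne_zero⟩
  exact HasEnoughRootsOfUnity.exists_primitiveRoot k (q + 1)

theorem HAut_pow_finrank (h : IsHCurve k q c a b) (hgen : k⟮a, b⟯ = ⊤) :
    b ^ (Module.finrank k⟮h.t⟯ Fb) =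
      algebraMap k⟮h.t⟯ Fb ⟨b ^ (q + 1), h.HAut_pow_mem⟩ := by
  rw [h.finrank_t hgen]; rfl

theorem HAut_normal (h : IsHCurve k q c a b) (hgen : k⟮a, b⟯ = ⊤) : Normal k⟮h.t⟯ Fb := by
  have := h.finiteDimensional_t hgen
  have hfr := h.finrank_t hgen
  obtain ⟨ζ, hζ⟩ := HAut_exists_prim k q
  have hK : (primitiveRoots (Module.finrank k⟮h.t⟯ Fb) k⟮h.t⟯).Nonempty := by
    rw [hfr]
    exact ⟨algebraMap k k⟮h.t⟯ ζ, (mem_primitiveRoots (Nat.succ_pos q)).2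
      (hζ.map_of_injective (algebraMap k _).injective)⟩
  have := isSplittingField_X_pow_sub_C_of_root_adjoin_eq_top hK (h.HAut_pow_finrank hgen)
    (h.adjoin_t_b hgen)
  exact Normal.of_isSplittingField (X ^ (Module.finrank k⟮h.t⟯ Fb) -
    C (⟨b ^ (q + 1), h.HAut_pow_mem⟩ : k⟮h.t⟯))

theorem HAut_minpoly (h : IsHCurve k q c a b) (hgen : k⟮a, b⟯ = ⊤) :
    minpoly k⟮h.t⟯ b = X ^ (q + 1) - C (⟨b ^ (q + 1), h.HAut_pow_mem⟩ : k⟮h.t⟯) := by
  have := h.finiteDimensional_t hgen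
  have hfr := h.finrank_t hgen
  have hirr := irreducible_X_pow_sub_C_of_root_adjoin_eq_top (h.HAut_pow_finrank hgen)
    (h.adjoin_t_b hgen)
  rw [hfr] at hirr
  refine (minpoly.eq_of_irreducible_of_monic hirr ?_ (monic_X_pow_sub_C _ (Nat.succ_ne_zero q))).symm
  rw [map_sub, map_pow, aeval_X, aeval_C]
  exact sub_self _

theorem HAut_exists_autK (h : IsHCurve k q c a b) (hgen : k⟮a, b⟯ = ⊤) (z : k)
    (hz : z ^ (q + 1) = 1) : ∃ σ : Fb ≃ₐ[k⟮h.t⟯] Fb, σ b = z • b := by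
  have hN := h.HAut_normal hgen
  have hroot : aeval (z • b) (minpoly k⟮h.t⟯ b) = 0 := by
    rw [h.HAut_minpoly hgen, map_sub, map_pow, aeval_X, aeval_C, _root_.smul_pow, hz, one_smul]
    exact sub_self _
  obtain ⟨φ, hφ⟩ := IntermediateField.exists_algHom_of_splits_of_aeval
    (fun s => ⟨hN.isIntegral s, hN.splits s⟩) hroot
  exact ⟨AlgEquiv.ofBijective φ (AlgHom.normal_bijective _ _ _ φ), hφ⟩

omit [IsAlgClosed k] [IsFF k Fb] in
theorem HAut_a_eq (h : IsHCurve k q c a b) :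
    a = algebraMap k⟮h.t⟯ Fb (AdjoinSimple.gen k h.t) * b := by
  show a = h.t * b
  rw [t, div_mul_cancel₀ _ h.b_ne]

omit [IsAlgClosed k] [IsFF k Fb] in
theorem HAut_map_a (h : IsHCurve k q c a b) (σ : Fb ≃ₐ[k⟮h.t⟯] Fb) (z : k) (hσ : σ b = z • b) :
    σ a = z • a :=
  calc σ a = σ (algebraMap k⟮h.t⟯ Fb (AdjoinSimple.gen k h.t) * b) := congrArg σ h.HAut_a_eq
    _ = algebraMap k⟮h.t⟯ Fb (AdjoinSimple.gen k h.t) * (z • b) := by
        rw [map_mul, AlgEquiv.commutes, hσ]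
    _ = z • (algebraMap k⟮h.t⟯ Fb (AdjoinSimple.gen k h.t) * b) := mul_smul_comm _ _ _
    _ = z • a := by rw [← h.HAut_a_eq]

/-- automorphisms `(a,b) ↦ (z a, z b)`, `z^(q+1) = 1`. -/
theorem exists_aut (h : IsHCurve k q c a b) (hgen : k⟮a, b⟯ = ⊤) (z : k) (hz : z ^ (q + 1) = 1) :
    ∃ σ : Fb ≃ₐ[k] Fb, σ a = z • a ∧ σ b = z • b := by
  obtain ⟨σ, hσ⟩ := h.HAut_exists_autK hgen z hz
  exact ⟨σ.restrictScalars k, h.HAut_map_a σ z hσ, hσ⟩

/-- the fixed field of these automorphisms is `k(t)`. -/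
theorem mem_adjoin_t_of_fixed (h : IsHCurve k q c a b) (hgen : k⟮a, b⟯ = ⊤) (u : Fb)
    (hu : ∀ σ : Fb ≃ₐ[k] Fb, (∃ z : k, σ a = z • a ∧ σ b = z • b) → σ u = u) : u ∈ k⟮h.t⟯ := by
  have hN := h.HAut_normal hgen
  have hS := h.isSeparable_t hgen
  have hF := h.finiteDimensional_t hgen
  have hG : IsGalois k⟮h.t⟯ Fb := isGalois_iff.2 ⟨hS, hN⟩
  have h1 : u ∈ (⊥ : IntermediateField k⟮h.t⟯ Fb) := by
    rw [IsGalois.mem_bot_iff_fixed]
    intro σ
    apply hu (σ.restrictScalars k)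
    have h2 : (σ b / b) ^ (q + 1) = 1 := by
      have h3 : σ (b ^ (q + 1)) = b ^ (q + 1) := σ.commutes ⟨b ^ (q + 1), h.HAut_pow_mem⟩
      rw [div_pow, ← map_pow, h3, div_self (pow_ne_zero _ h.b_ne)]
    have hint : IsIntegral k (σ b / b) :=
      ⟨X ^ (q + 1) - 1, monic_X_pow_sub_C 1 (Nat.succ_ne_zero q), by
        rw [eval₂_sub, eval₂_pow, eval₂_X, eval₂_one, h2, sub_self]⟩
    obtain ⟨z, hz⟩ := minpoly.mem_range_of_degree_eq_one k (σ b / b)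
      (IsAlgClosed.degree_eq_one_of_irreducible k (minpoly.irreducible hint))
    have h4 : σ b = z • b := by
      rw [Algebra.smul_def, hz, div_mul_cancel₀ _ h.b_ne]
    exact ⟨z, h.HAut_map_a σ z h4, h4⟩
  obtain ⟨x, hx⟩ := IntermediateField.mem_bot.1 h1
  rw [← hx]
  exact x.2

end IsHCurve

end Fermat.Agent.S36.Geo
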