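import Fermat.Agent.GAL.FF.RH.Rational

/-!
# S36/Geo/HCurve : the curve `a b (b - a)^(q-1) = c` in characteristic `q`

`k` algebraically closed of characteristic `q`, `Fb ⊇ k` a field, `a b : Fb`, `a` transcendental,
`a * b * (b - a)^(q-1) = c ≠ 0`.  Put `y = a^q + c / a` and `t = a / b`.  Then
* `a^(q+1) - y a + c = 0 = b^(q+1) - y b + c`,  `t (1 - t)^(q-1) b^(q+1) = c`;
* `[k(a) : k(y)] = q + 1`, `[k(a,b) : k(a)] = q`: the `a^i b^j`, `i ≤ q`, `j < q`, are linearly
  independent over `k(y)`;
* if `Fb = k(a,b)`: `Fb` is a function field of genus `≥ (q-1)/2` (`≥ 1` if `q = 2`), cyclic of degree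
  `q + 1` over `k(t)`, with boundary points `(a,b) = (0,∞), (∞,0), (∞,∞)`.
-/

set_option autoImplicit false
set_option linter.unusedSectionVars false

namespace Fermat.Agent.S36.Geo

open AlgebraicCurve Fermat.Agent.Lib.RR IntermediateField Polynomial

variable {k Fb : Type*} [Field k] [Field Fb] [Algebra k Fb]

/-- The equation of the horizontal component. -/
structure IsHCurve (k : Type*) {Fb : Type*} [Field k] [Field Fb] [Algebra k Fb] (q : ℕ) (c : k)
    (a b : Fb) : Prop where
  c_ne : c ≠ 0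
  trans : Transcendental k a
  rel : a * b * (b - a) ^ (q - 1) = algebraMap k Fb c

variable {q : ℕ} [Fact q.Prime] [CharP k q] {c : k} {a b : Fb}

namespace IsHCurve

/-- `y = a^q + c / a`. -/
noncomputable def y (_h : IsHCurve k q c a b) : Fb := a ^ q + algebraMap k Fb c / a

/-- `t = a / b`. -/
noncomputable def t (_h : IsHCurve k q c a b) : Fb := a / b

theorem HCurve_algebraMap_c_ne (h : IsHCurve k q c a b) : algebraMap k Fb c ≠ 0 := by
  rw [Ne, map_eq_zero]
  exact h.c_ne

/-- a root of a nonzero polynomial over `k(u)`, `u` algebraic over `k`, is algebraic over `k`. -/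
theorem HCurve_isAlgebraic_of_root {u x : Fb} (hu : IsAlgebraic k u) (p : (k⟮u⟯)[X]) (hp : p ≠ 0)
    (hx : aeval x p = 0) : IsAlgebraic k x := by
  haveI : Algebra.IsAlgebraic k k⟮u⟯ := IntermediateField.isAlgebraic_adjoin_simple hu.isIntegral
  exact IsAlgebraic.restrictScalars k ⟨p, hp, hx⟩

theorem HCurve_charP (k : Type*) {Fb : Type*} [Field k] [Field Fb] [Algebra k Fb] (q : ℕ)
    [CharP k q] : CharP Fb q :=
  charP_of_injective_algebraMap (algebraMap k Fb).injective q

theorem HCurve_sub_mul_pow {Fb : Type*} [Field Fb] {q : ℕ} [Fact q.Prime] [CharP Fb q]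
    (x z : Fb) : (x - z) * (x - z) ^ (q - 1) = x ^ q - z ^ q := by
  have hq : q - 1 + 1 = q := Nat.sub_add_cancel (Fact.out : q.Prime).one_le
  rw [← pow_succ', hq, sub_pow_char]

theorem HCurve_neg_one_pow {Fb : Type*} [Field Fb] {q : ℕ} [Fact q.Prime] [CharP Fb q] :
    (-1 : Fb) ^ (q - 1) = 1 := by
  have hq : q - 1 + 1 = q := Nat.sub_add_cancel (Fact.out : q.Prime).one_le
  have h1 : (-1 : Fb) ^ (q - 1) * (-1) = -1 := by
    rw [← pow_succ, hq, neg_one_pow_char]
  linear_combination -h1

theorem a_ne (h : IsHCurve k q c a b) : a ≠ 0 := by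
  intro h0
  apply HCurve_algebraMap_c_ne h
  rw [← h.rel, h0, zero_mul, zero_mul]

theorem b_ne (h : IsHCurve k q c a b) : b ≠ 0 := by
  intro h0
  apply HCurve_algebraMap_c_ne h
  rw [← h.rel, h0, mul_zero, zero_mul]

theorem a_ne_b (h : IsHCurve k q c a b) : a ≠ b := by
  intro h0
  apply HCurve_algebraMap_c_ne h
  have hq : q - 1 ≠ 0 := by
    have := (Fact.out : q.Prime).two_le
    omega
  rw [← h.rel, h0, sub_self, zero_pow hq, mul_zero]

theorem eq_a (h : IsHCurve k q c a b) : a ^ (q + 1) - h.y * a + algebraMap k Fb c = 0 := by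
  have ha := h.a_ne
  unfold y
  field_simp
  ring

/-- `b^(q+1) - y b + c = (b - a) (b (b-a)^(q-1) - c/a)` (`(b-a)^q = b^q - a^q`: `sub_pow_char`,
needs `CharP Fb q`: `charP_of_injective_algebraMap`). -/
theorem eq_b (h : IsHCurve k q c a b) : b ^ (q + 1) - h.y * b + algebraMap k Fb c = 0 := by
  have ha := h.a_ne
  haveI : CharP Fb q := HCurve_charP k q
  have hD := HCurve_sub_mul_pow (q := q) b a
  have hy : h.y = a ^ q + b * (b - a) ^ (q - 1) := by
    unfold y
    rw [← h.rel]
    field_simp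
  rw [hy, ← h.rel]
  linear_combination (-b) * hD

/-- symmetry `a ↔ b` (`(a-b)^(q-1) = (b-a)^(q-1)`: `q - 1` even, or characteristic `2`). -/
theorem symm (h : IsHCurve k q c a b) : IsHCurve k q c b a := by
  refine ⟨h.c_ne, ?_, ?_⟩
  · intro hb
    apply h.trans
    refine HCurve_isAlgebraic_of_root hb
      (X * C (AdjoinSimple.gen k b) * (C (AdjoinSimple.gen k b) - X) ^ (q - 1) -
        C (algebraMap k k⟮b⟯ c)) ?_ ?_
    · intro h0
      have h1 := congrArg (Polynomial.eval 0) h0
      simp only [eval_sub, eval_mul, eval_X, eval_C, zero_mul, zero_sub, eval_zero, neg_eq_zero,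
        map_eq_zero] at h1
      exact h.c_ne h1
    · simp only [map_sub, map_mul, map_pow, aeval_X, aeval_C, AdjoinSimple.algebraMap_gen,
        ← IsScalarTower.algebraMap_apply]
      rw [h.rel, sub_self]
  · haveI : CharP Fb q := HCurve_charP k q
    have h1 : (a - b) ^ (q - 1) = (b - a) ^ (q - 1) := by
      have h2 : a - b = (-1) * (b - a) := by ring
      rw [h2, mul_pow, HCurve_neg_one_pow, one_mul]
    rw [h1, ← h.rel]
    ring

theorem y_symm (h : IsHCurve k q c a b) : h.symm.y = h.y := by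
  have hb := h.b_ne
  have h1 := h.eq_b
  have h2 : h.symm.y = b ^ q + algebraMap k Fb c / b := rfl
  rw [h2]
  field_simp
  linear_combination h1

theorem eq_t (h : IsHCurve k q c a b) :
    h.t * (1 - h.t) ^ (q - 1) * b ^ (q + 1) = algebraMap k Fb c := by
  have hb := h.b_ne
  obtain ⟨n, hn⟩ : ∃ n, q = n + 1 := ⟨q - 1, (Nat.sub_add_cancel (Fact.out : q.Prime).one_le).symm⟩
  have h1 : 1 - h.t = (b - a) / b := by
    unfold t
    field_simp
  have h2 : h.t = a / b := rfl
  rw [h1, h2, ← h.rel, div_pow]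
  have h3 : q - 1 = n := by omega
  rw [h3, hn]
  field_simp
  ring

theorem trans_y (h : IsHCurve k q c a b) : Transcendental k h.y := by
  intro hy
  apply h.trans
  refine HCurve_isAlgebraic_of_root hy
    (X ^ (q + 1) - C (AdjoinSimple.gen k h.y) * X + C (algebraMap k k⟮h.y⟯ c)) ?_ ?_
  · intro h0
    have h1 := congrArg (Polynomial.eval 0) h0
    simp only [eval_sub, eval_add, eval_mul, eval_pow, eval_X, eval_C, mul_zero, eval_zero,
      ne_eq, Nat.add_eq_zero_iff, one_ne_zero, and_false, not_false_eq_true, zero_pow, sub_zero,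
      zero_add, map_eq_zero] at h1
    exact h.c_ne h1
  · simp only [map_sub, map_add, map_mul, map_pow, aeval_X, aeval_C, AdjoinSimple.algebraMap_gen,
      ← IsScalarTower.algebraMap_apply]
    exact h.eq_a

theorem trans_t (h : IsHCurve k q c a b) : Transcendental k h.t := by
  intro ht
  apply h.symm.trans
  refine HCurve_isAlgebraic_of_root ht
    (C (AdjoinSimple.gen k h.t * (1 - AdjoinSimple.gen k h.t) ^ (q - 1)) * X ^ (q + 1) -
      C (algebraMap k k⟮h.t⟯ c)) ?_ ?_
  · intro h0
    have h1 := congrArg (Polynomial.eval 0) h0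
    simp only [eval_sub, eval_mul, eval_pow, eval_X, eval_C, eval_zero,
      ne_eq, Nat.add_eq_zero_iff, one_ne_zero, and_false, not_false_eq_true, zero_pow, mul_zero,
      zero_sub, neg_eq_zero, map_eq_zero] at h1
    exact h.c_ne h1
  · simp only [map_sub, map_mul, map_pow, map_one, aeval_X, aeval_C, AdjoinSimple.algebraMap_gen,
      ← IsScalarTower.algebraMap_apply]
    rw [h.eq_t, sub_self]

end IsHCurve

end Fermat.Agent.S36.Geo
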