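import Fermat.Agent.S36.Geo.HCurve

/-!
# S36/Geo/HIndepA : `[k(a) : k(y)] = q + 1`, `y = a^q + c/a`
-/

set_option autoImplicit false

namespace Fermat.Agent.S36.Geo

open AlgebraicCurve Fermat.Agent.Lib.RR IntermediateField Polynomial

variable {k Fb : Type*} [Field k] [Field Fb] [Algebra k Fb]
variable {q : ℕ} [Fact q.Prime] [CharP k q] {c : k} {a b : Fb}

/-- the rational function `(X^(n+1) + c) / X`. -/
noncomputable def HIndepA_f (k : Type*) [Field k] (n : ℕ) (c : k) : RatFunc k :=
  algebraMap k[X] (RatFunc k) (X ^ (n + 1) + C c) / algebraMap k[X] (RatFunc k) X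

theorem HIndepA_le_natDegree_num (n : ℕ) {c : k} (hc : c ≠ 0) :
    n + 1 ≤ (HIndepA_f k n c).num.natDegree := by
  have hP : (X ^ (n + 1) + C c : k[X]) ≠ 0 := by
    intro h0
    have := congrArg (fun p => p.coeff 0) h0
    simp at this
    exact hc this
  have hdeg : (X ^ (n + 1) + C c : k[X]).natDegree = n + 1 := by
    rw [natDegree_add_C, natDegree_X_pow]
  have hf0 : HIndepA_f k n c ≠ 0 := by
    unfold HIndepA_f
    refine div_ne_zero ?_ ?_
    · exact (map_ne_zero_iff _ (IsFractionRing.injective k[X] (RatFunc k))).2 hP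
    · exact (map_ne_zero_iff _ (IsFractionRing.injective k[X] (RatFunc k))).2 X_ne_zero
  have h1 : (HIndepA_f k n c).num * X = (X ^ (n + 1) + C c) * (HIndepA_f k n c).denom :=
    (RatFunc.num_mul_eq_mul_denom_iff X_ne_zero).2 rfl
  have hcop : IsCoprime (X ^ (n + 1) + C c : k[X]) X := by
    refine ⟨C c⁻¹, -(C c⁻¹ * X ^ n), ?_⟩
    have : (C c⁻¹ * C c : k[X]) = 1 := by rw [← C_mul, inv_mul_cancel₀ hc, C_1]
    linear_combination this
  have h2 : (X ^ (n + 1) + C c : k[X]) ∣ (HIndepA_f k n c).num :=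
    hcop.dvd_of_dvd_mul_right (Dvd.intro _ h1.symm)
  have := natDegree_le_of_dvd h2 (RatFunc.num_ne_zero hf0)
  rwa [hdeg] at this

theorem HIndepA_le_natDegree_minpoly (n : ℕ) {c : k} (hc : c ≠ 0) :
    n + 1 ≤ (minpoly k⟮HIndepA_f k n c⟯ (RatFunc.X : RatFunc k)).natDegree := by
  set f := HIndepA_f k n c with hf
  have hnum := HIndepA_le_natDegree_num (k := k) n hc
  have hfC : ¬ ∃ c', f = RatFunc.C c' := by
    rintro ⟨c', hc'⟩
    rw [← hf, hc', RatFunc.num_C, natDegree_C] at hnum
    omega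
  have h1 := minpoly.eq_of_irreducible (f.irreducible_minpolyX hfC) f.minpolyX_aeval_X
  rw [← h1, mul_comm, natDegree_C_mul (inv_ne_zero (leadingCoeff_ne_zero.mpr fun H =>
    hfC ((RatFunc.minpolyX_eq_zero_iff f).mp H))), RatFunc.natDegree_minpolyX]
  exact le_max_of_le_left hnum

namespace IsHCurve

/-- (C1) `1, a, …, a^q` are linearly independent over `k(y)`.
PROOF.  `X^(q+1) - y X + c` is irreducible over `k(y)`: it is of degree one in `y`, with coprime
coefficients `-X`, `X^(q+1) + c` (Gauss lemma); or: `[k(a) : k(y)] =` the degree `q + 1` of the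
rational function `(a^(q+1) + c)/a`.  Elementary alternative: a relation
`∑_{i ≤ q} u_i(y) a^i = 0` with polynomials `u_i`, not all divisible by `y`...; or compare the orders
of pole at `a = ∞` in `k(a)`: `ord (u_i(y) a^i) ≡ -i mod (q+1)`?? (no: `ord_∞ y = -q`, and
`-q d - i` are pairwise distinct mod `q` only for `i < q`; use both poles `a = 0` (`ord y = -1`) and
`a = ∞`), so the Gauss lemma route is recommended. -/
theorem indep_a (h : IsHCurve k q c a b) (u : Fin (q + 1) → Fb) (hu : ∀ i, u i ∈ k⟮h.y⟯)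
    (hsum : ∑ i, u i * a ^ (i : ℕ) = 0) : ∀ i, u i = 0 := by
  classical
  have hinj : Function.Injective (Polynomial.aeval a : k[X] →ₐ[k] Fb) :=
    transcendental_iff_injective.1 h.trans
  let φ : RatFunc k →ₐ[k] Fb := RatFunc.liftAlgHom (Polynomial.aeval a)
    (nonZeroDivisors_le_comap_nonZeroDivisors_of_injective _ hinj)
  have hφinj : Function.Injective φ := RatFunc.liftAlgHom_injective _ hinj
  have hφX : φ RatFunc.X = a := by
    have := RatFunc.liftAlgHom_apply_div (Polynomial.aeval a : k[X] →ₐ[k] Fb)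
      (nonZeroDivisors_le_comap_nonZeroDivisors_of_injective _ hinj) X 1
    simpa [RatFunc.algebraMap_X] using this
  set f := HIndepA_f k q c with hf
  have hφf : φ f = h.y := by
    have := RatFunc.liftAlgHom_apply_div (Polynomial.aeval a : k[X] →ₐ[k] Fb)
      (nonZeroDivisors_le_comap_nonZeroDivisors_of_injective _ hinj) (X ^ (q + 1) + C c) X
    have h2 : φ f = (a ^ (q + 1) + algebraMap k Fb c) / a := by
      refine this.trans ?_
      simp
    rw [h2, IsHCurve.y, add_div, pow_succ, mul_div_assoc, div_self h.a_ne, mul_one]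
  have hmap : (k⟮f⟯).map φ = k⟮h.y⟯ := by
    rw [IntermediateField.adjoin_map, Set.image_singleton, hφf]
  have hex : ∀ i, ∃ v : k⟮f⟯, φ (v : RatFunc k) = u i := by
    intro i
    have := hu i
    rw [← hmap] at this
    obtain ⟨v, hv, hvu⟩ := this
    exact ⟨⟨v, hv⟩, hvu⟩
  choose v hv using hex
  set P : (k⟮f⟯)[X] := ∑ i : Fin (q + 1), C (v i) * X ^ (i : ℕ) with hP
  have hPev : Polynomial.aeval (RatFunc.X : RatFunc k) P = 0 := by
    apply hφinj
    rw [map_zero, ← hsum, hP, map_sum, map_sum]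
    refine Finset.sum_congr rfl fun i _ => ?_
    rw [map_mul, aeval_C, map_pow, aeval_X, map_mul, map_pow, hφX]
    congr 1
    exact hv i
  have hPdeg : P.degree < ((q + 1 : ℕ) : WithBot ℕ) := by
    rw [hP]
    refine lt_of_le_of_lt (degree_sum_le _ _) ?_
    rw [Finset.sup_lt_iff (by exact WithBot.bot_lt_coe _)]
    intro i _
    refine lt_of_le_of_lt (degree_C_mul_X_pow_le _ _) ?_
    exact_mod_cast i.2
  have hP0 : P = 0 := by
    by_contra hne
    have h1 := minpoly.degree_le_of_ne_zero k⟮f⟯ (RatFunc.X : RatFunc k) hne hPev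
    have h2 := HIndepA_le_natDegree_minpoly (k := k) q h.c_ne
    have h3 : (minpoly k⟮f⟯ (RatFunc.X : RatFunc k)) ≠ 0 := by
      intro h0
      rw [← hf, h0, natDegree_zero] at h2
      omega
    rw [degree_eq_natDegree h3] at h1
    have h4 := lt_of_le_of_lt h1 hPdeg
    have h5 : (minpoly k⟮f⟯ (RatFunc.X : RatFunc k)).natDegree < q + 1 := by exact_mod_cast h4
    rw [← hf] at h2
    omega
  intro i
  have hcoeff : P.coeff (i : ℕ) = v i := by
    rw [hP, finsetSum_coeff]
    rw [Finset.sum_eq_single i]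
    · simp
    · intro j _ hji
      rw [coeff_C_mul, coeff_X_pow, if_neg (fun h => hji (Fin.ext h.symm)), mul_zero]
    · intro hi
      exact absurd (Finset.mem_univ i) hi
  rw [← hv i, ← hcoeff, hP0]
  simp

end IsHCurve

end Fermat.Agent.S36.Geo
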