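import Fermat.Agent.S36.Geo.HPlaces
import Fermat.Agent.GAL.RED.CurveBasic

/-!
# S36/Geo/HPlacesOne : the points over `t = 1` of the curve `a b (b - a)^(q-1) = c`
-/

set_option autoImplicit false
set_option linter.unusedSectionVars false

namespace Fermat.Agent.S36.Geo

open AlgebraicCurve Fermat.Agent.Lib.RR IntermediateField Polynomial

variable {k Fb : Type*} [Field k] [Field Fb] [Algebra k Fb] [IsAlgClosed k] [IsFF k Fb]
variable {q : ℕ} [Fact q.Prime] [CharP k q] {c : k} {a b : Fb}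

/-- a function whose only pole is `w0`: the orders at finitely many other places add up to at most
the order of the pole. -/
theorem HPlacesOne_sum_le (f : Fb) (w0 : Place k Fb) (hpole : ∀ w, w ≠ w0 → 0 ≤ w.ord f)
    (S : Finset (Place k Fb)) (hS : w0 ∉ S) : ∑ w ∈ S, w.ord f ≤ - w0.ord f := by
  classical
  have h0 : Divisor.degree (divOf (K := k) f) = 0 := degree_divOf f
  rw [Fermat.Agent.GAL.RED.degree_eq_sum] at h0
  set T := (divOf (K := k) f).support ∪ S ∪ {w0} with hT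
  have h1 : (divOf (K := k) f).sum (fun _ n => n) = ∑ w ∈ T, w.ord f := by
    rw [Finsupp.sum_of_support_subset _ (s := T)
      (fun w hw => Finset.mem_union_left _ (Finset.mem_union_left _ hw)) _ (fun _ _ => rfl)]
    exact Finset.sum_congr rfl fun w _ => divOf_apply f w
  have hw0T : w0 ∈ T := Finset.mem_union_right _ (Finset.mem_singleton_self w0)
  have h2 : w0.ord f + ∑ w ∈ T.erase w0, w.ord f = ∑ w ∈ T, w.ord f :=
    Finset.add_sum_erase T (fun w => w.ord f) hw0T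
  have h3 : ∑ w ∈ S, w.ord f ≤ ∑ w ∈ T.erase w0, w.ord f := by
    refine Finset.sum_le_sum_of_subset_of_nonneg ?_ (fun w hw _ => hpole w (Finset.ne_of_mem_erase hw))
    intro w hw
    refine Finset.mem_erase.2 ⟨fun h => hS (h ▸ hw), ?_⟩
    exact Finset.mem_union_left _ (Finset.mem_union_right _ hw)
  linarith

/-- a function with a pole has a zero. -/
theorem HPlacesOne_exists_zero {f : Fb} {w0 : Place k Fb} (h0 : w0.ord f < 0) :
    ∃ w : Place k Fb, 0 < w.ord f := by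
  apply Fermat.Agent.GAL.FF.Cor.exists_zero_of_transcendental
  intro halg
  obtain ⟨c', hc'⟩ := Fermat.Agent.GAL.FF.Cor.exists_algebraMap_eq_of_isAlgebraic' halg
  rw [← hc', Fermat.Agent.GAL.RED.ord_algebraMap] at h0
  exact lt_irrefl _ h0

omit [IsAlgClosed k] [IsFF k Fb] in
theorem HPlacesOne_ord_add_unit (w : Place k Fb) {f g : Fb} (hf : 0 < w.ord f) (hg0 : g ≠ 0)
    (hg : w.ord g = 0) : w.ord (f + g) = 0 := by
  have hf0 : f ≠ 0 := by
    rintro rfl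
    rw [w.ord_zero] at hf
    exact lt_irrefl _ hf
  rw [add_comm, Fermat.Agent.GAL.RED.ord_add_eq_of_lt w hg0 hf0 (by omega), hg]

namespace IsHCurve

omit [IsAlgClosed k] [IsFF k Fb] in
theorem HPlacesOne_one_sub_t (h : IsHCurve k q c a b) : 1 - h.t = (b - a) / b := by
  have hb := h.b_ne
  unfold IsHCurve.t
  field_simp

omit [IsAlgClosed k] [IsFF k Fb] in
theorem HPlacesOne_t_ne (h : IsHCurve k q c a b) : h.t ≠ 0 := div_ne_zero h.a_ne h.b_ne

omit [IsAlgClosed k] [IsFF k Fb] in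
theorem HPlacesOne_one_sub_t_ne (h : IsHCurve k q c a b) : 1 - h.t ≠ 0 := by
  rw [h.HPlacesOne_one_sub_t]
  exact div_ne_zero (sub_ne_zero.2 h.a_ne_b.symm) h.b_ne

omit [IsAlgClosed k] [IsFF k Fb] in
theorem HPlacesOne_ord_t (h : IsHCurve k q c a b) (w : Place k Fb) :
    w.ord h.t = w.ord a - w.ord b :=
  Fermat.Agent.GAL.RED.ord_div w h.a_ne h.b_ne

omit [IsAlgClosed k] [IsFF k Fb] in
theorem HPlacesOne_ord_one_sub_t (h : IsHCurve k q c a b) (w : Place k Fb) :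
    w.ord (1 - h.t) = w.ord (b - a) - w.ord b := by
  rw [h.HPlacesOne_one_sub_t,
    Fermat.Agent.GAL.RED.ord_div w (sub_ne_zero.2 h.a_ne_b.symm) h.b_ne]

/-- `ord a = ord b`: interior point, or a point over `t = 1`. -/
theorem ord_of_eq (h : IsHCurve k q c a b) (w : Place k Fb) (hw : w.ord a = w.ord b) :
    (w.ord a = 0 ∧ w.ord (b - a) = 0) ∨ (w.ord a < 0 ∧ 0 < w.ord (b - a)) := by
  have hrel := h.ord_rel w
  have hq1 : (1 : ℤ) ≤ (q : ℤ) - 1 := by
    have := (Fact.out : q.Prime).two_le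
    have h2 : (2 : ℤ) ≤ (q : ℤ) := by exact_mod_cast this
    omega
  have hne : b + -a ≠ 0 := by
    rw [← sub_eq_add_neg]
    exact sub_ne_zero.2 h.a_ne_b.symm
  have hmin := Fermat.Agent.GAL.RED.min_le_ord_add w hne
  rw [Fermat.Agent.GAL.RED.ord_neg, ← sub_eq_add_neg, ← hw, min_self] at hmin
  rw [← hw] at hrel
  rcases lt_trichotomy (w.ord a) 0 with hn | hn | hn
  · right
    refine ⟨hn, ?_⟩
    by_contra hd
    push Not at hd
    have : ((q : ℤ) - 1) * w.ord (b - a) ≤ 0 :=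
      mul_nonpos_of_nonneg_of_nonpos (by omega) hd
    linarith
  · left
    refine ⟨hn, ?_⟩
    rw [hn] at hrel
    have h0 : ((q : ℤ) - 1) * w.ord (b - a) = 0 := by linarith
    exact (mul_eq_zero.1 h0).resolve_left (by omega)
  · exfalso
    have : 0 < ((q : ℤ) - 1) * w.ord (b - a) := mul_pos (by omega) (by omega)
    linarith

/-- `ξ = b^(r+1) (1-t)^r`, `q = 2 r + 1`. -/
noncomputable def HPlacesOne_xi (h : IsHCurve k q c a b) (r : ℕ) : Fb :=
  b ^ (r + 1) * (1 - h.t) ^ r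

omit [IsAlgClosed k] [IsFF k Fb] in
theorem HPlacesOne_xi_ne (h : IsHCurve k q c a b) (r : ℕ) : h.HPlacesOne_xi r ≠ 0 :=
  mul_ne_zero (pow_ne_zero _ h.b_ne) (pow_ne_zero _ h.HPlacesOne_one_sub_t_ne)

omit [IsAlgClosed k] [IsFF k Fb] in
theorem HPlacesOne_xi_sq (h : IsHCurve k q c a b) {r : ℕ} (hr : q = 2 * r + 1) :
    h.HPlacesOne_xi r ^ 2 * h.t = algebraMap k Fb c := by
  have h1 := h.eq_t
  have e1 : q - 1 = 2 * r := by omega
  have e2 : q + 1 = 2 * (r + 1) := by omega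
  rw [e1, e2] at h1
  rw [← h1]
  unfold HPlacesOne_xi
  ring

omit [IsAlgClosed k] [IsFF k Fb] in
theorem HPlacesOne_key (h : IsHCurve k q c a b) {r : ℕ} (hr : q = 2 * r + 1) {s : k}
    (hs : s ^ 2 = c) :
    (h.HPlacesOne_xi r - algebraMap k Fb s) * (h.HPlacesOne_xi r - algebraMap k Fb (-s)) * h.t =
      algebraMap k Fb c * (1 - h.t) := by
  have h1 := h.HPlacesOne_xi_sq hr
  have h2 : algebraMap k Fb s ^ 2 = algebraMap k Fb c := by rw [← map_pow, hs]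
  rw [map_neg]
  linear_combination h1 - h.t * h2

omit [IsAlgClosed k] [IsFF k Fb] in
theorem HPlacesOne_two_ord_xi (h : IsHCurve k q c a b) {r : ℕ} (hr : q = 2 * r + 1)
    (w : Place k Fb) : 2 * w.ord (h.HPlacesOne_xi r) = w.ord b - w.ord a := by
  have h1 := congrArg w.ord (h.HPlacesOne_xi_sq hr)
  rw [w.ord_mul (pow_ne_zero _ (h.HPlacesOne_xi_ne r)) h.HPlacesOne_t_ne,
    Fermat.Agent.GAL.RED.ord_pow, h.HPlacesOne_ord_t, Fermat.Agent.GAL.RED.ord_algebraMap] at h1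
  push_cast at h1
  linarith

theorem HPlacesOne_ord_xi_sub_pole (h : IsHCurve k q c a b) (hgen : k⟮a, b⟯ = ⊤) {r : ℕ}
    (hr : q = 2 * r + 1) {s : k} (hs : s ≠ 0) {w0 : Place k Fb} (hw0 : w0.ord b < w0.ord a) :
    w0.ord (h.HPlacesOne_xi r - algebraMap k Fb s) = -((r : ℤ) + 1) := by
  obtain ⟨hb, ha⟩ := h.ord_of_gt hgen w0 hw0
  have h1 := h.HPlacesOne_two_ord_xi hr w0
  have hqr : (q : ℤ) = 2 * r + 1 := by exact_mod_cast hr
  rw [hb, ha, hqr] at h1
  have h2 : w0.ord (h.HPlacesOne_xi r) = -((r : ℤ) + 1) := by linarith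
  have hs' : -algebraMap k Fb s ≠ 0 := neg_ne_zero.2 ((_root_.map_ne_zero _).2 hs)
  rw [sub_eq_add_neg, Fermat.Agent.GAL.RED.ord_add_eq_of_lt w0 (h.HPlacesOne_xi_ne r) hs', h2]
  rw [Fermat.Agent.GAL.RED.ord_neg, Fermat.Agent.GAL.RED.ord_algebraMap, h2]
  omega

omit [IsAlgClosed k] [IsFF k Fb] in
theorem HPlacesOne_ord_xi_sub_nonneg (h : IsHCurve k q c a b) {r : ℕ} (hr : q = 2 * r + 1) (s : k)
    {w : Place k Fb} (hw : w.ord a ≤ w.ord b) :
    0 ≤ w.ord (h.HPlacesOne_xi r - algebraMap k Fb s) := by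
  have h1 := h.HPlacesOne_two_ord_xi hr w
  have h2 : 0 ≤ w.ord (h.HPlacesOne_xi r) := by omega
  by_cases h0 : h.HPlacesOne_xi r + -algebraMap k Fb s = 0
  · rw [sub_eq_add_neg, h0, w.ord_zero]
  · have h3 := Fermat.Agent.GAL.RED.min_le_ord_add w h0
    rw [Fermat.Agent.GAL.RED.ord_neg, Fermat.Agent.GAL.RED.ord_algebraMap] at h3
    rw [sub_eq_add_neg]
    exact le_trans (le_min h2 le_rfl) h3

omit [IsAlgClosed k] [IsFF k Fb] in
theorem HPlacesOne_ord_xi_sub_add (h : IsHCurve k q c a b) {r : ℕ} (hr : q = 2 * r + 1) {s : k}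
    (hs : s ^ 2 = c) (w : Place k Fb) (hw : w.ord a = w.ord b) :
    w.ord (h.HPlacesOne_xi r - algebraMap k Fb s) +
      w.ord (h.HPlacesOne_xi r - algebraMap k Fb (-s)) = w.ord (1 - h.t) := by
  have hkey := h.HPlacesOne_key hr hs
  have hc : algebraMap k Fb c ≠ 0 := (_root_.map_ne_zero _).2 h.c_ne
  have hR : algebraMap k Fb c * (1 - h.t) ≠ 0 := mul_ne_zero hc h.HPlacesOne_one_sub_t_ne
  rw [← hkey] at hR
  have h12 := left_ne_zero_of_mul hR
  have h1 := left_ne_zero_of_mul h12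
  have h2 := right_ne_zero_of_mul h12
  have h3 := congrArg w.ord hkey
  rw [w.ord_mul h12 h.HPlacesOne_t_ne, w.ord_mul h1 h2, w.ord_mul hc h.HPlacesOne_one_sub_t_ne,
    Fermat.Agent.GAL.RED.ord_algebraMap, h.HPlacesOne_ord_t, hw] at h3
  linarith

omit [IsAlgClosed k] [IsFF k Fb] in
theorem HPlacesOne_two_ne (hq : q ≠ 2) : (2 : k) ≠ 0 := by
  intro h2
  have h3 : ((2 : ℕ) : k) = 0 := by exact_mod_cast h2
  rw [CharP.cast_eq_zero_iff k q 2] at h3
  exact hq ((Nat.prime_dvd_prime_iff_eq (Fact.out : q.Prime) Nat.prime_two).1 h3)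

omit [IsAlgClosed k] [IsFF k Fb] in
theorem HPlacesOne_ord_xi_other (h : IsHCurve k q c a b) (hq : q ≠ 2) (r : ℕ) {s : k} (hs : s ≠ 0)
    (w : Place k Fb) (hpos : 0 < w.ord (h.HPlacesOne_xi r - algebraMap k Fb s)) :
    w.ord (h.HPlacesOne_xi r - algebraMap k Fb (-s)) = 0 := by
  have e : h.HPlacesOne_xi r - algebraMap k Fb (-s) =
      (h.HPlacesOne_xi r - algebraMap k Fb s) + algebraMap k Fb (2 * s) := by
    rw [map_neg, map_mul, map_ofNat]
    ring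
  rw [e]
  exact HPlacesOne_ord_add_unit w hpos
    ((_root_.map_ne_zero _).2 (mul_ne_zero (HPlacesOne_two_ne (k := k) hq) hs))
    (Fermat.Agent.GAL.RED.ord_algebraMap w _)

omit [IsAlgClosed k] [IsFF k Fb] in
theorem HPlacesOne_sqrt_ne (h : IsHCurve k q c a b) {s : k} (hs : s ^ 2 = c) : s ≠ 0 := by
  rintro rfl
  exact h.c_ne (by rw [← hs]; simp)

/-- at a zero of `ξ - s`. -/
theorem HPlacesOne_bound (h : IsHCurve k q c a b) (hgen : k⟮a, b⟯ = ⊤) (hq : q ≠ 2) {r : ℕ}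
    (hr : q = 2 * r + 1) {s : k} (hs : s ^ 2 = c) (w : Place k Fb) (hw : w.ord a = w.ord b)
    (hpos : 0 < w.ord (h.HPlacesOne_xi r - algebraMap k Fb s)) :
    w.ord (h.HPlacesOne_xi r - algebraMap k Fb s) = w.ord (1 - h.t) ∧
      w.ord (1 - h.t) ≤ (r : ℤ) + 1 := by
  have hs0 := h.HPlacesOne_sqrt_ne hs
  have h1 := h.HPlacesOne_ord_xi_sub_add hr hs w hw
  rw [h.HPlacesOne_ord_xi_other hq r hs0 w hpos, add_zero] at h1
  refine ⟨h1, ?_⟩
  obtain ⟨w0, hw0, hu⟩ := h.existsUnique_gt hgen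
  have hpole : ∀ w', w' ≠ w0 → 0 ≤ w'.ord (h.HPlacesOne_xi r - algebraMap k Fb s) := by
    intro w' hw'
    apply h.HPlacesOne_ord_xi_sub_nonneg hr s
    by_contra hlt
    exact hw' (hu w' (not_le.1 hlt))
  have hne : w0 ∉ ({w} : Finset (Place k Fb)) := by
    rw [Finset.mem_singleton]
    rintro rfl
    omega
  have h2 := HPlacesOne_sum_le _ w0 hpole {w} hne
  rw [Finset.sum_singleton, h.HPlacesOne_ord_xi_sub_pole hgen hr hs0 hw0, h1] at h2
  linarith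

omit [IsAlgClosed k] [IsFF k Fb] [CharP k q] in
theorem HPlacesOne_exists_r (hq : q ≠ 2) : ∃ r : ℕ, q = 2 * r + 1 := by
  rcases (Fact.out : q.Prime).eq_two_or_odd' with h2 | ⟨r, hr⟩
  · exact absurd h2 hq
  · exact ⟨r, hr⟩

/-- `q` odd, `t = 1`: `ξ := b^((q+1)/2) (1-t)^((q-1)/2)`, `ξ² = c/t`, `k(t) ⊆ k(ξ)`, `t - 1` has simple
zeros in `k(ξ)`, `[Fb : k(ξ)] = (q+1)/2`; so `e_w ≤ (q+1)/2`; and `(q+1)/2 ∣ e_w`. -/
theorem ord_of_eq_neg (h : IsHCurve k q c a b) (hgen : k⟮a, b⟯ = ⊤) (hq : q ≠ 2) (w : Place k Fb)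
    (hw : w.ord a = w.ord b) (hneg : w.ord a < 0) :
    2 * w.ord a = -((q : ℤ) - 1) ∧ w.ord (b - a) = 1 := by
  obtain ⟨r, hr⟩ := HPlacesOne_exists_r (q := q) hq
  obtain ⟨s, hs⟩ := IsAlgClosed.exists_pow_nat_eq c (n := 2) (by norm_num)
  have hd : 0 < w.ord (b - a) := by
    rcases h.ord_of_eq w hw with ⟨h0, -⟩ | ⟨-, h0⟩
    · omega
    · exact h0
  have hrel := h.ord_rel w
  have hqr : (q : ℤ) = 2 * r + 1 := by exact_mod_cast hr
  rw [← hw, hqr] at hrel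
  have h1t := h.HPlacesOne_ord_one_sub_t w
  rw [← hw] at h1t
  have hsum := h.HPlacesOne_ord_xi_sub_add hr hs w hw
  have hn1 := h.HPlacesOne_ord_xi_sub_nonneg hr s hw.le
  have hn2 := h.HPlacesOne_ord_xi_sub_nonneg hr (-s) hw.le
  have hle : w.ord (1 - h.t) ≤ (r : ℤ) + 1 := by
    rcases hn1.lt_or_eq with hp | hp
    · exact (h.HPlacesOne_bound hgen hq hr hs w hw hp).2
    · have hp2 : 0 < w.ord (h.HPlacesOne_xi r - algebraMap k Fb (-s)) := by omega
      exact (h.HPlacesOne_bound hgen hq hr (s := -s) (by rw [neg_sq, hs]) w hw hp2).2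
  have hd1 : w.ord (b - a) = 1 := by
    by_contra hne
    have h2 : 2 ≤ w.ord (b - a) := by omega
    have h3 : ((r : ℤ) + 1) * 2 ≤ ((r : ℤ) + 1) * w.ord (b - a) :=
      mul_le_mul_of_nonneg_left h2 (by positivity)
    have hr0 : (0 : ℤ) ≤ r := Int.natCast_nonneg r
    nlinarith
  refine ⟨?_, hd1⟩
  rw [hd1] at hrel
  rw [hqr]
  linarith

/-- pole structure of `1 - t`. -/
theorem HPlacesOne_ord_one_sub_t_pole (h : IsHCurve k q c a b) (hgen : k⟮a, b⟯ = ⊤)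
    {w0 : Place k Fb} (hw0 : w0.ord a < w0.ord b) : w0.ord (1 - h.t) = -((q : ℤ) + 1) := by
  obtain ⟨ha, hb⟩ := h.ord_of_lt hgen w0 hw0
  have h1 := h.HPlacesOne_ord_t w0
  rw [ha, hb] at h1
  have hq0 : (0 : ℤ) ≤ q := Int.natCast_nonneg q
  have e : (1 : Fb) - h.t = -h.t + 1 := by ring
  rw [e, Fermat.Agent.GAL.RED.ord_add_eq_of_lt w0 (neg_ne_zero.2 h.HPlacesOne_t_ne) one_ne_zero,
    Fermat.Agent.GAL.RED.ord_neg, h1]
  · ring
  · rw [Fermat.Agent.GAL.RED.ord_neg, h1, w0.ord_one]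
    omega

omit [IsAlgClosed k] [IsFF k Fb] in
theorem HPlacesOne_ord_one_sub_t_nonneg (h : IsHCurve k q c a b) {w : Place k Fb}
    (hw : w.ord b ≤ w.ord a) : 0 ≤ w.ord (1 - h.t) := by
  have h1 := h.HPlacesOne_ord_t w
  have e : (1 : Fb) - h.t = 1 + -h.t := by ring
  have h0 : (1 : Fb) + -h.t ≠ 0 := by
    rw [← e]
    exact h.HPlacesOne_one_sub_t_ne
  have h3 := Fermat.Agent.GAL.RED.min_le_ord_add w h0
  rw [Fermat.Agent.GAL.RED.ord_neg, w.ord_one] at h3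
  rw [e]
  exact le_trans (le_min le_rfl (by omega)) h3

theorem HPlacesOne_sum_one_sub_t_le (h : IsHCurve k q c a b) (hgen : k⟮a, b⟯ = ⊤)
    (S : Finset (Place k Fb)) (hS : ∀ w ∈ S, w.ord a = w.ord b) :
    ∑ w ∈ S, w.ord (1 - h.t) ≤ (q : ℤ) + 1 := by
  obtain ⟨w0, hw0, hu⟩ := h.existsUnique_lt hgen
  have hpole : ∀ w', w' ≠ w0 → 0 ≤ w'.ord (1 - h.t) := by
    intro w' hw'
    apply h.HPlacesOne_ord_one_sub_t_nonneg
    by_contra hlt
    exact hw' (hu w' (not_le.1 hlt))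
  have hne : w0 ∉ S := by
    intro hmem
    have := hS w0 hmem
    omega
  have h2 := HPlacesOne_sum_le _ w0 hpole S hne
  rw [h.HPlacesOne_ord_one_sub_t_pole hgen hw0] at h2
  linarith

theorem ord_of_eq_neg_two (h : IsHCurve k q c a b) (hgen : k⟮a, b⟯ = ⊤) (hq : q = 2)
    (w : Place k Fb) (hw : w.ord a = w.ord b) (hneg : w.ord a < 0) :
    w.ord a = -1 ∧ w.ord (b - a) = 2 := by
  have hrel := h.ord_rel w
  have hq2 : (q : ℤ) = 2 := by exact_mod_cast hq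
  rw [← hw, hq2] at hrel
  have h1t := h.HPlacesOne_ord_one_sub_t w
  rw [← hw] at h1t
  have h2 := h.HPlacesOne_sum_one_sub_t_le hgen {w} (by
    intro w' hw'
    rw [Finset.mem_singleton] at hw'
    rw [hw']
    exact hw)
  rw [Finset.sum_singleton, hq2] at h2
  constructor <;> omega

/-- a zero of `ξ - s` is a point `(∞,∞)`. -/
theorem HPlacesOne_mem_of_zero (h : IsHCurve k q c a b) (hq : q ≠ 2) {r : ℕ}
    (hr : q = 2 * r + 1) {s : k} (hs : s ^ 2 = c) (w : Place k Fb)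
    (hpos : 0 < w.ord (h.HPlacesOne_xi r - algebraMap k Fb s)) :
    w.ord a = w.ord b ∧ w.ord a < 0 := by
  have hs0 := h.HPlacesOne_sqrt_ne hs
  have hxi : w.ord (h.HPlacesOne_xi r) = 0 := by
    have e : h.HPlacesOne_xi r = (h.HPlacesOne_xi r - algebraMap k Fb s) + algebraMap k Fb s := by
      ring
    rw [e]
    exact HPlacesOne_ord_add_unit w hpos ((_root_.map_ne_zero _).2 hs0)
      (Fermat.Agent.GAL.RED.ord_algebraMap w _)
  have h1 := h.HPlacesOne_two_ord_xi hr w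
  rw [hxi] at h1
  have hw : w.ord a = w.ord b := by omega
  refine ⟨hw, ?_⟩
  have h2 := h.HPlacesOne_ord_xi_sub_add hr hs w hw
  rw [h.HPlacesOne_ord_xi_other hq r hs0 w hpos, add_zero, h.HPlacesOne_ord_one_sub_t] at h2
  rcases h.ord_of_eq w hw with ⟨h3, h4⟩ | ⟨h3, -⟩
  · omega
  · exact h3

theorem HPlacesOne_existsUnique_zero (h : IsHCurve k q c a b) (hgen : k⟮a, b⟯ = ⊤) (hq : q ≠ 2)
    {r : ℕ} (hr : q = 2 * r + 1) {s : k} (hs : s ^ 2 = c) :
    ∃! w : Place k Fb, 0 < w.ord (h.HPlacesOne_xi r - algebraMap k Fb s) := by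
  classical
  have hs0 := h.HPlacesOne_sqrt_ne hs
  obtain ⟨w0, hw0, hu⟩ := h.existsUnique_gt hgen
  have hw0ord := h.HPlacesOne_ord_xi_sub_pole hgen hr hs0 hw0
  obtain ⟨w1, hw1⟩ := HPlacesOne_exists_zero (k := k)
    (f := h.HPlacesOne_xi r - algebraMap k Fb s) (w0 := w0) (by rw [hw0ord]; omega)
  refine ⟨w1, hw1, ?_⟩
  intro w2 hw2
  by_contra hne
  have hval : ∀ w : Place k Fb, 0 < w.ord (h.HPlacesOne_xi r - algebraMap k Fb s) →
      w.ord (h.HPlacesOne_xi r - algebraMap k Fb s) = (r : ℤ) + 1 ∧ w ≠ w0 := by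
    intro w hw
    obtain ⟨he, hn⟩ := h.HPlacesOne_mem_of_zero hq hr hs w hw
    obtain ⟨h1, h2⟩ := h.ord_of_eq_neg hgen hq w he hn
    have h3 := (h.HPlacesOne_bound hgen hq hr hs w he hw).1
    have hqr : (q : ℤ) = 2 * r + 1 := by exact_mod_cast hr
    rw [h.HPlacesOne_ord_one_sub_t, h2, ← he] at h3
    refine ⟨by rw [h3]; omega, ?_⟩
    rintro rfl
    omega
  have hpole : ∀ w', w' ≠ w0 → 0 ≤ w'.ord (h.HPlacesOne_xi r - algebraMap k Fb s) := by
    intro w' hw'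
    apply h.HPlacesOne_ord_xi_sub_nonneg hr s
    by_contra hlt
    exact hw' (hu w' (not_le.1 hlt))
  have hmem : w0 ∉ ({w1, w2} : Finset (Place k Fb)) := by
    simp only [Finset.mem_insert, Finset.mem_singleton, not_or]
    exact ⟨(hval w1 hw1).2.symm, (hval w2 hw2).2.symm⟩
  have h2 := HPlacesOne_sum_le _ w0 hpole {w1, w2} hmem
  rw [Finset.sum_pair (fun h => hne h.symm), (hval w1 hw1).1, (hval w2 hw2).1, hw0ord] at h2
  have hr0 : (0 : ℤ) ≤ r := Int.natCast_nonneg r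
  linarith

/-- `q` odd: exactly two points `(∞,∞)`. -/
theorem card_eq_neg (h : IsHCurve k q c a b) (hgen : k⟮a, b⟯ = ⊤) (hq : q ≠ 2) :
    Nat.card {w : Place k Fb // w.ord a = w.ord b ∧ w.ord a < 0} = 2 := by
  obtain ⟨r, hr⟩ := HPlacesOne_exists_r (q := q) hq
  obtain ⟨s, hs⟩ := IsAlgClosed.exists_pow_nat_eq c (n := 2) (by norm_num)
  have hs' : (-s) ^ 2 = c := by rw [neg_sq, hs]
  have hs0 := h.HPlacesOne_sqrt_ne hs
  obtain ⟨w1, hw1, hu1⟩ := h.HPlacesOne_existsUnique_zero hgen hq hr hs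
  obtain ⟨w2, hw2, hu2⟩ := h.HPlacesOne_existsUnique_zero hgen hq hr hs'
  rw [Nat.card_eq_two_iff]
  refine ⟨⟨w1, h.HPlacesOne_mem_of_zero hq hr hs w1 hw1⟩,
    ⟨w2, h.HPlacesOne_mem_of_zero hq hr hs' w2 hw2⟩, ?_, ?_⟩
  · intro he
    have he' : w1 = w2 := congrArg Subtype.val he
    have h0 := h.HPlacesOne_ord_xi_other hq r hs0 w1 hw1
    rw [he'] at h0
    omega
  · rw [Set.eq_univ_iff_forall]
    rintro ⟨w, hw, hneg⟩
    have hd : 0 < w.ord (b - a) := by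
      rcases h.ord_of_eq w hw with ⟨h0, -⟩ | ⟨-, h0⟩
      · omega
      · exact h0
    have hsum := h.HPlacesOne_ord_xi_sub_add hr hs w hw
    rw [h.HPlacesOne_ord_one_sub_t] at hsum
    have hn1 := h.HPlacesOne_ord_xi_sub_nonneg hr s hw.le
    rcases hn1.lt_or_eq with hp | hp
    · left
      exact Subtype.ext (hu1 w hp)
    · right
      have hp2 : 0 < w.ord (h.HPlacesOne_xi r - algebraMap k Fb (-s)) := by omega
      exact Set.mem_singleton_iff.2 (Subtype.ext (hu2 w hp2))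

theorem card_eq_neg_two (h : IsHCurve k q c a b) (hgen : k⟮a, b⟯ = ⊤) (hq : q = 2) :
    Nat.card {w : Place k Fb // w.ord a = w.ord b ∧ w.ord a < 0} = 1 := by
  classical
  have hq2 : (q : ℤ) = 2 := by exact_mod_cast hq
  obtain ⟨w0, hw0, -⟩ := h.existsUnique_lt hgen
  have hw0ord := h.HPlacesOne_ord_one_sub_t_pole hgen hw0
  obtain ⟨w1, hw1⟩ := HPlacesOne_exists_zero (k := k) (f := 1 - h.t) (w0 := w0)
    (by rw [hw0ord]; omega)
  have hmem : w1.ord a = w1.ord b ∧ w1.ord a < 0 := by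
    have ht : w1.ord h.t = 0 := by
      have e : h.t = -(1 - h.t) + 1 := by ring
      rw [e]
      exact HPlacesOne_ord_add_unit w1 (by rwa [Fermat.Agent.GAL.RED.ord_neg]) one_ne_zero
        w1.ord_one
    rw [h.HPlacesOne_ord_t] at ht
    have hw : w1.ord a = w1.ord b := by omega
    refine ⟨hw, ?_⟩
    rw [h.HPlacesOne_ord_one_sub_t] at hw1
    rcases h.ord_of_eq w1 hw with ⟨h3, h4⟩ | ⟨h3, -⟩
    · omega
    · exact h3
  rw [Nat.card_eq_one_iff_exists]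
  refine ⟨⟨w1, hmem⟩, ?_⟩
  rintro ⟨w, hw, hneg⟩
  apply Subtype.ext
  show w = w1
  by_contra hne
  have hval : ∀ w' : Place k Fb, w'.ord a = w'.ord b → w'.ord a < 0 → w'.ord (1 - h.t) = 3 := by
    intro w' h1 h2
    obtain ⟨h3, h4⟩ := h.ord_of_eq_neg_two hgen hq w' h1 h2
    rw [h.HPlacesOne_ord_one_sub_t, h4, ← h1, h3]
    norm_num
  have h2 := h.HPlacesOne_sum_one_sub_t_le hgen {w, w1} (by
    intro w' hw'
    rw [Finset.mem_insert, Finset.mem_singleton] at hw'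
    rcases hw' with rfl | rfl
    · exact hw
    · exact hmem.1)
  rw [Finset.sum_pair hne, hval w hw hneg, hval w1 hmem.1 hmem.2, hq2] at h2
  omega

end IsHCurve

end Fermat.Agent.S36.Geo
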