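import Fermat.Agent.S36.Val.Disc
import Fermat.Agent.S36.Geo.HTower
import Fermat.Agent.S36.Geo.HPlacesOne
import Fermat.Agent.S36.Geo.HGenus
import Fermat.Agent.S36.Geo.HAut

/-!
# S36/Geo/HMain : the horizontal valuation `H_e` from a Kronecker polynomial

`E` a function field over `K` with good reduction `R`, `r` (level `M'`, the MIDDLE copy), `e` a point of
the reduction, `x : E` a coordinate on the residue disc of `e`; `F ⊇ E` with `[F : E] ≤ q (q+1)`;
`x₀ ≠ x₂ ∈ F` two roots of `T^(q+1) + ∑_{i ≤ q} g_i T^i`, where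
`g_i = [i = 1] (-x) + q r_i + x² s_i`, `r_i, s_i` integral without poles on the residue disc, and
`r_0(e) = c̄ ≠ 0`.  `ϖ^(q+1) = q`.

OUTPUT: a unique `V : ValOver R.A F` whose restriction to `E` is the Gauss point of the disc
`|x| ≤ |ϖ|^q`; `a = x₀/ϖ`, `b = x₂/ϖ ∈ V.O`; residue field `k(ā,b̄)`, `ā b̄ (b̄-ā)^(q-1) = c̄`.
-/

set_option autoImplicit false

namespace Fermat.Agent.S36.Geo

open AlgebraicCurve Fermat.Agent.Lib.RR Fermat.Agent.GAL.RED Fermat.Agent.S36.Val Polynomial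
  IntermediateField

variable {K E F k Eb : Type*} [Field K] [Field E] [Field F] [Algebra K E] [Algebra E F] [Algebra K F]
  [IsScalarTower K E F] [Field k] [Field Eb] [Algebra k Eb]

/-- The input of the construction of `H_e`. -/
structure HInput (R : RedData K E k Eb) (r : Place K E → Place k Eb) (e : Place k Eb) (q : ℕ)
    (ϖ : K) (x : E) (g rr ss : ℕ → E) (c : K) (x₀ x₂ : F) : Prop where
  disc : DiscHyp R r e x (ϖ ^ q)
  ϖ_pow : ϖ ^ (q + 1) = (q : K)
  g_eq : ∀ i, i ≤ q → g i = (if i = 1 then -x else 0) + (q : E) * rr i + x ^ 2 * ss i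
  rr_mem : ∀ i, i ≤ q → rr i ∈ discRing R r e
  ss_mem : ∀ i, i ≤ q → ss i ∈ discRing R r e
  c_mem : c ∈ R.A
  c_unit : c ∉ R.A.nonunits
  rr_zero : R.red (rr 0 - algebraMap K E c) = 0 ∨ 0 < e.ord (R.red (rr 0 - algebraMap K E c))
  root₀ : x₀ ^ (q + 1) + ∑ i ∈ Finset.range (q + 1), algebraMap E F (g i) * x₀ ^ i = 0
  root₂ : x₂ ^ (q + 1) + ∑ i ∈ Finset.range (q + 1), algebraMap E F (g i) * x₂ ^ i = 0
  ne : x₀ ≠ x₂
  finite : FiniteDimensional E F
  finrank_le : Module.finrank E F ≤ q * (q + 1)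

variable [IsFF K E] [IsAlgClosed K] [IsFF k Eb] [IsAlgClosed k]
variable {R : RedData K E k Eb} {r : Place K E → Place k Eb} {e : Place k Eb} {q : ℕ}
  {ϖ : K} {x : E} {g rr ss : ℕ → E} {c : K} {x₀ x₂ : F}

/-- the scaled coefficients `γ_i = g_i / ϖ^(q+1-i)`. -/
noncomputable def scaledCoeff (q : ℕ) (ϖ : K) (g : ℕ → E) (i : ℕ) : E :=
  (algebraMap K E ϖ)⁻¹ ^ (q + 1 - i) * g i

/-- A valuation subring `OE` of `E` as a `ValOver`. -/
def discValOver {ρ : K} {OE : ValuationSubring E} (hOE : IsDiscVal R r e x ρ OE) :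
    ValOver R.A E := ⟨OE, hOE.comap⟩

omit [IsFF K E] [IsAlgClosed K] [Algebra K E] in
/-- the scaling computation. -/
theorem HMain_scaled (P y : E) (hP : P ≠ 0) (q i : ℕ) (hq : 1 ≤ q) (hi : i ≤ q) (u v : E) :
    P⁻¹ ^ (q + 1 - i) * ((if i = 1 then -(P ^ q * y) else 0) + P ^ (q + 1) * u +
      (P ^ q * y) ^ 2 * v) = (if i = 1 then -y else 0) + P ^ i * u + P ^ (q - 1 + i) * y ^ 2 * v := by
  obtain ⟨j, hj⟩ : ∃ j, q + 1 - i = j := ⟨_, rfl⟩
  have hj1 : q + 1 = j + i := by omega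
  have hj2 : q + q = j + (q - 1 + i) := by omega
  have hPj : P⁻¹ ^ j * P ^ j = 1 := by
    rw [← mul_pow, inv_mul_cancel₀ hP, one_pow]
  have h1 : P⁻¹ ^ j * (if i = 1 then -(P ^ q * y) else 0) = (if i = 1 then -y else 0) := by
    split_ifs with h
    · have : j = q := by omega
      rw [this] at hPj ⊢
      rw [mul_neg, ← mul_assoc, hPj, one_mul]
    · rw [mul_zero]
  have h2 : P⁻¹ ^ j * (P ^ (q + 1) * u) = P ^ i * u := by
    rw [hj1, pow_add, ← mul_assoc, ← mul_assoc, hPj, one_mul]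
  have h3 : P⁻¹ ^ j * ((P ^ q * y) ^ 2 * v) = P ^ (q - 1 + i) * y ^ 2 * v := by
    have : (P ^ q * y) ^ 2 = P ^ (q + q) * y ^ 2 := by rw [pow_add]; ring
    rw [this, hj2, pow_add, ← mul_assoc, ← mul_assoc, ← mul_assoc, hPj, one_mul]
  rw [hj, mul_add, mul_add, h1, h2, h3]

omit [IsAlgClosed K] in
/-- non-units of a valuation subring. -/
theorem HMain_mem_nonunits_iff (A : ValuationSubring K) (a : K) :
    a ∈ A.nonunits ↔ a = 0 ∨ a⁻¹ ∉ A := ValuationSubring.mem_nonunits_iff_or A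

omit [IsAlgClosed K] in
theorem HMain_pow_mem_nonunits (A : ValuationSubring K) {a : K} (ha : a ∈ A.nonunits) {n : ℕ}
    (hn : n ≠ 0) : a ^ n ∈ A.nonunits := by
  rw [ValuationSubring.mem_nonunits_iff] at ha ⊢
  rw [map_pow]
  exact pow_lt_one₀ zero_le ha hn

omit [IsAlgClosed K] in
theorem HMain_of_pow_mem_nonunits (A : ValuationSubring K) {a : K} {n : ℕ}
    (ha : a ^ n ∈ A.nonunits) : a ∈ A.nonunits := by
  rw [ValuationSubring.mem_nonunits_iff] at ha ⊢
  rw [map_pow] at ha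
  by_contra hlt
  exact absurd ha (not_lt.mpr (one_le_pow₀ (not_lt.mp hlt)))

omit [IsAlgClosed K] in
theorem HMain_mul_mem_nonunits (A : ValuationSubring K) {a b : K} (ha : a ∈ A.nonunits)
    (hb : b ∈ A) : a * b ∈ A.nonunits := by
  rw [ValuationSubring.mem_nonunits_iff] at ha ⊢
  rw [← ValuationSubring.valuation_le_one_iff] at hb
  rw [map_mul]
  exact mul_lt_one_of_lt_of_le ha hb

omit [IsAlgClosed K] in
theorem HMain_add_mem_nonunits (A : ValuationSubring K) {a b : K} (ha : a ∈ A.nonunits)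
    (hb : b ∈ A.nonunits) : a + b ∈ A.nonunits := by
  rw [ValuationSubring.mem_nonunits_iff] at ha hb ⊢
  exact lt_of_le_of_lt (A.valuation.map_add a b) (max_lt ha hb)

/-- **`HInput ⟹ HTower`.**  `q = ϖ^(q+1)`, `x = ϖ^q y`:
`γ_0 = r_0 + ϖ^(q-1) y² s_0`, `γ_1 = -y + ϖ r_1 + ϖ^q y² s_1`, `γ_i = ϖ^i r_i + ϖ^(q-1+i) y² s_i`;
`IsDiscVal.ring_le`, `IsDiscVal.mem_nonunits` (for `r_0 - c`), `IsDiscVal.exists_ratfunc`. -/
theorem HInput.hTower (h : HInput R r e q ϖ x g rr ss c x₀ x₂) (hq : 2 ≤ q) (hr : IsRedMap R r)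
    (hC : R.IsCartesian) {OE : ValuationSubring E} (hOE : IsDiscVal R r e x (ϖ ^ q) OE) :
    HTower R.A (discValOver hOE) q ((algebraMap K E (ϖ ^ q))⁻¹ * x) c (scaledCoeff q ϖ g)
      ((algebraMap K F ϖ)⁻¹ * x₀) ((algebraMap K F ϖ)⁻¹ * x₂) := by
  have hϖ0 : ϖ ≠ 0 := fun h0 => h.disc.ρ_ne (by rw [h0, zero_pow (by omega)])
  have hϖA : ϖ ∈ R.A.nonunits := HMain_of_pow_mem_nonunits R.A h.disc.ρ_small
  set P : E := algebraMap K E ϖ with hPdef
  have hP0 : P ≠ 0 := (_root_.map_ne_zero _).mpr hϖ0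
  have hPn : P ∈ OE.nonunits := by
    rw [← mem_nonunits_comap_iff (algebraMap K E) OE ϖ, hOE.comap]
    exact hϖA
  set y : E := (algebraMap K E (ϖ ^ q))⁻¹ * x with hydef
  have hyO : y ∈ OE := hOE.y_mem
  have hxy : x = P ^ q * y := by
    rw [hydef, map_pow, ← mul_assoc, mul_inv_cancel₀ (pow_ne_zero q hP0), one_mul]
  have hqE : (q : E) = P ^ (q + 1) := by
    rw [hPdef, ← map_pow, h.ϖ_pow, map_natCast]
  have hsc : ∀ i, i ≤ q → scaledCoeff q ϖ g i =
      (if i = 1 then -y else 0) + P ^ i * rr i + P ^ (q - 1 + i) * y ^ 2 * ss i := by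
    intro i hi
    unfold scaledCoeff
    rw [h.g_eq i hi, hqE, hxy]
    exact HMain_scaled P y hP0 q i (by omega) hi _ _
  have hrr : ∀ i, i ≤ q → rr i ∈ OE := fun i hi => hOE.ring_le (h.rr_mem i hi)
  have hss : ∀ i, i ≤ q → ss i ∈ OE := fun i hi => hOE.ring_le (h.ss_mem i hi)
  have hsmall : ∀ (n : ℕ) (w : E), n ≠ 0 → w ∈ OE → P ^ n * w ∈ OE.nonunits := fun n w hn hw =>
    HMain_mul_mem_nonunits OE (HMain_pow_mem_nonunits OE hPn hn) hw
  have hroot : ∀ z : F, z ^ (q + 1) + ∑ i ∈ Finset.range (q + 1), algebraMap E F (g i) * z ^ i = 0 →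
      ((algebraMap K F ϖ)⁻¹ * z) ^ (q + 1) + ∑ i ∈ Finset.range (q + 1),
        algebraMap E F (scaledCoeff q ϖ g i) * ((algebraMap K F ϖ)⁻¹ * z) ^ i = 0 := by
    intro z hz
    have : ((algebraMap K F ϖ)⁻¹ * z) ^ (q + 1) + ∑ i ∈ Finset.range (q + 1),
        algebraMap E F (scaledCoeff q ϖ g i) * ((algebraMap K F ϖ)⁻¹ * z) ^ i =
        (algebraMap K F ϖ)⁻¹ ^ (q + 1) *
          (z ^ (q + 1) + ∑ i ∈ Finset.range (q + 1), algebraMap E F (g i) * z ^ i) := by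
      rw [mul_add, Finset.mul_sum, mul_pow]
      congr 1
      refine Finset.sum_congr rfl fun i hi => ?_
      have hi' : i ≤ q := Nat.lt_succ_iff.mp (Finset.mem_range.mp hi)
      unfold scaledCoeff
      rw [map_mul, map_pow, map_inv₀, ← IsScalarTower.algebraMap_apply K E F, mul_pow]
      have : (algebraMap K F ϖ)⁻¹ ^ (q + 1) =
          (algebraMap K F ϖ)⁻¹ ^ (q + 1 - i) * (algebraMap K F ϖ)⁻¹ ^ i := by
        rw [← pow_add]; congr 1; omega
      rw [this]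
      ring
    rw [this, hz, mul_zero]
  refine
    { c_mem := h.c_mem
      c_unit := h.c_unit
      y_mem := hyO
      y_trans := hOE.y_trans
      ratfunc := fun f hf => hOE.exists_ratfunc hr hC h.disc hf
      γ0 := ?_
      γ1 := ?_
      γi := ?_
      root_a := hroot x₀ h.root₀
      root_b := hroot x₂ h.root₂
      a_ne_b := ?_
      finite := h.finite
      finrank_le := h.finrank_le }
  · show scaledCoeff q ϖ g 0 - algebraMap K E c ∈ OE.nonunits
    rw [hsc 0 (Nat.zero_le _), if_neg (by norm_num), zero_add, pow_zero, one_mul, add_zero]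
    have h1 : rr 0 - algebraMap K E c ∈ OE.nonunits := by
      refine hOE.mem_nonunits hr h.disc ?_ h.rr_zero
      refine (discRing R r e).sub_mem (h.rr_mem 0 (Nat.zero_le _)) ?_
      refine ⟨R.algebraMap_mem _ h.c_mem, fun Q _ => ?_⟩
      rw [ord_algebraMap]
    have h2 : P ^ (q - 1) * (y ^ 2 * ss 0) ∈ OE.nonunits :=
      hsmall _ _ (by omega) (OE.mul_mem _ _ (OE.pow_mem hyO 2) (hss 0 (Nat.zero_le _)))
    have : rr 0 + P ^ (q - 1) * y ^ 2 * ss 0 - algebraMap K E c =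
        (rr 0 - algebraMap K E c) + P ^ (q - 1) * (y ^ 2 * ss 0) := by ring
    rw [this]
    exact HMain_add_mem_nonunits OE h1 h2
  · show scaledCoeff q ϖ g 1 + y ∈ OE.nonunits
    rw [hsc 1 (by omega), if_pos rfl]
    have h1 : P ^ 1 * rr 1 ∈ OE.nonunits := hsmall _ _ one_ne_zero (hrr 1 (by omega))
    have h2 : P ^ (q - 1 + 1) * (y ^ 2 * ss 1) ∈ OE.nonunits :=
      hsmall _ _ (by omega) (OE.mul_mem _ _ (OE.pow_mem hyO 2) (hss 1 (by omega)))
    have : -y + P ^ 1 * rr 1 + P ^ (q - 1 + 1) * y ^ 2 * ss 1 + y =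
        P ^ 1 * rr 1 + P ^ (q - 1 + 1) * (y ^ 2 * ss 1) := by ring
    rw [this]
    exact HMain_add_mem_nonunits OE h1 h2
  · intro i hi2 hiq
    show scaledCoeff q ϖ g i ∈ OE.nonunits
    rw [hsc i hiq, if_neg (by omega), zero_add]
    have h1 : P ^ i * rr i ∈ OE.nonunits := hsmall _ _ (by omega) (hrr i hiq)
    have h2 : P ^ (q - 1 + i) * (y ^ 2 * ss i) ∈ OE.nonunits :=
      hsmall _ _ (by omega) (OE.mul_mem _ _ (OE.pow_mem hyO 2) (hss i hiq))
    have : P ^ i * rr i + P ^ (q - 1 + i) * y ^ 2 * ss i =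
        P ^ i * rr i + P ^ (q - 1 + i) * (y ^ 2 * ss i) := by ring
    rw [this]
    exact HMain_add_mem_nonunits OE h1 h2
  · intro hab
    have hF0 : (algebraMap K F ϖ)⁻¹ ≠ 0 := inv_ne_zero ((_root_.map_ne_zero _).mpr hϖ0)
    exact h.ne (mul_left_cancel₀ hF0 hab)

/-- `V` is the horizontal valuation attached to the input. -/
def IsHVal (R : RedData K E k Eb) (r : Place K E → Place k Eb) (e : Place k Eb) (q : ℕ) (ϖ : K)
    (x : E) (V : ValOver R.A F) : Prop :=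
  IsDiscVal R r e x (ϖ ^ q) (V.O.comap (algebraMap E F))

/-- **Existence and uniqueness of `H_e`.** -/
theorem HInput.existsUnique [Fact q.Prime] [CharP (IsLocalRing.ResidueField ↥R.A) q]
    (h : HInput R r e q ϖ x g rr ss c x₀ x₂) (hr : IsRedMap R r) (hC : R.IsCartesian) :
    ∃! V : ValOver R.A F, IsHVal R r e q ϖ x V := by
  have hq : 2 ≤ q := (Fact.out : q.Prime).two_le
  obtain ⟨OE, hOE⟩ := exists_isDiscVal hr h.disc
  have T := h.hTower hq hr hC hOE
  obtain ⟨V, hV⟩ := T.exists_valOver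
  have hV' : V.O.comap (algebraMap E F) = OE := hV
  refine ⟨V, ?_, ?_⟩
  · show IsDiscVal R r e x (ϖ ^ q) (V.O.comap (algebraMap E F))
    rw [hV']
    exact hOE
  · intro V' hV2
    have h2 : V'.O.comap (algebraMap E F) = OE := hOE.unique hV2 hr hC h.disc
    exact T.valOver_unique V V' hV h2

/-- **The residue field of `H_e`.** -/
theorem HInput.isHCurve [Fact q.Prime] [CharP (IsLocalRing.ResidueField ↥R.A) q]
    (h : HInput R r e q ϖ x g rr ss c x₀ x₂) (hr : IsRedMap R r) (hC : R.IsCartesian)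
    (V : ValOver R.A F) (hV : IsHVal R r e q ϖ x V) :
    IsHCurve (IsLocalRing.ResidueField ↥R.A) q (IsLocalRing.residue ↥R.A ⟨c, h.c_mem⟩)
        (V.red ((algebraMap K F ϖ)⁻¹ * x₀)) (V.red ((algebraMap K F ϖ)⁻¹ * x₂)) ∧
      (IsLocalRing.ResidueField ↥R.A)⟮V.red ((algebraMap K F ϖ)⁻¹ * x₀),
        V.red ((algebraMap K F ϖ)⁻¹ * x₂)⟯ = ⊤ := by
  have hq : 2 ≤ q := (Fact.out : q.Prime).two_le
  have T := h.hTower hq hr hC hV
  exact ⟨T.isHCurve V rfl, T.adjoin_eq_top V rfl⟩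

/-- centre of `H_e` on the middle copy: integral functions of `E` without pole on the residue disc
are integral for `V` and reduce to their value at `e`. -/
theorem IsHVal.mem_nonunits (hr : IsRedMap R r) (hd : DiscHyp R r e x (ϖ ^ q))
    {V : ValOver R.A F} (hV : IsHVal R r e q ϖ x V) {f : E} (hf : f ∈ discRing R r e)
    (hfe : R.red f = 0 ∨ 0 < e.ord (R.red f)) : algebraMap E F f ∈ V.O.nonunits :=
  (mem_nonunits_comap_iff (algebraMap E F) V.O f).mp (IsDiscVal.mem_nonunits hV hr hd hf hfe)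

omit [IsFF K E] [IsAlgClosed K] [IsFF k Eb] [IsAlgClosed k] in
/-- transport of the Gauss point by a semilinear automorphism which scales `y` by a unit. -/
theorem HMain_isDiscVal_comap {ρ : K} {OE : ValuationSubring E} (hOE : IsDiscVal R r e x ρ OE)
    (τE : E ≃+* E) (τ₀ : K ≃+* K) (hτ : ∀ a, τE (algebraMap K E a) = algebraMap K E (τ₀ a))
    (hA : ∀ a, τ₀ a ∈ R.A ↔ a ∈ R.A) (hdisc : ∀ f, f ∈ discRing R r e → τE f ∈ discRing R r e)
    (ξ : K) (hξ : ξ ∈ R.A) (hξ' : ξ ∉ R.A.nonunits)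
    (hy : τE ((algebraMap K E ρ)⁻¹ * x) = algebraMap K E ξ * ((algebraMap K E ρ)⁻¹ * x)) :
    IsDiscVal R r e x ρ (OE.comap (τE : E →+* E)) := by
  have hmemA : ∀ a : K, algebraMap K E a ∈ OE ↔ a ∈ R.A := by
    intro a
    have : a ∈ OE.comap (algebraMap K E) ↔ a ∈ R.A := by rw [hOE.comap]
    exact this
  refine ⟨?_, ?_, ?_, ?_⟩
  · ext a
    show τE (algebraMap K E a) ∈ OE ↔ a ∈ R.A
    rw [hτ, hmemA, hA]
  · intro f hf
    exact hOE.ring_le (hdisc f hf)
  · show τE ((algebraMap K E ρ)⁻¹ * x) ∈ OE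
    rw [hy]
    exact OE.mul_mem _ _ ((hmemA ξ).mpr hξ) hOE.y_mem
  · intro G hG hmem
    rw [mem_nonunits_comap_iff] at hmem
    have hU : ∀ a : K, a ∉ R.A.nonunits ↔ a ≠ 0 ∧ a⁻¹ ∈ R.A := by
      intro a
      rw [HMain_mem_nonunits_iff]
      rw [not_or, not_not]
    let G' : K[X] := (G.map (τ₀ : K →+* K)).comp (C ξ * X)
    have hcoeff : ∀ i, G'.coeff i = τ₀ (G.coeff i) * ξ ^ i := by
      intro i
      show ((G.map (τ₀ : K →+* K)).comp (C ξ * X)).coeff i = _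
      rw [comp_C_mul_X_coeff, coeff_map]
      rfl
    have hG' : PrimPoly R.A G' := by
      refine ⟨fun i => ?_, ?_⟩
      · rw [hcoeff]
        exact R.A.mul_mem _ _ ((hA _).mpr (hG.1 i)) (R.A.pow_mem hξ i)
      · obtain ⟨i, hi⟩ := hG.2
        refine ⟨i, ?_⟩
        rw [hcoeff, hU]
        rw [hU] at hi hξ'
        refine ⟨mul_ne_zero ((_root_.map_ne_zero _).mpr hi.1) (pow_ne_zero _ hξ'.1), ?_⟩
        rw [mul_inv, ← map_inv₀, ← inv_pow]
        exact R.A.mul_mem _ _ ((hA _).mpr hi.2) (R.A.pow_mem hξ'.2 i)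
    refine hOE.y_trans G' hG' ?_
    have : aeval ((algebraMap K E ρ)⁻¹ * x) G' = τE (aeval ((algebraMap K E ρ)⁻¹ * x) G) := by
      show aeval ((algebraMap K E ρ)⁻¹ * x) ((G.map (τ₀ : K →+* K)).comp (C ξ * X)) = _
      rw [aeval_comp, map_mul, aeval_C, aeval_X, ← hy, aeval_def, aeval_def, eval₂_map]
      have h2 := hom_eval₂ G (algebraMap K E) (τE : E →+* E) ((algebraMap K E ρ)⁻¹ * x)
      have h3 : (τE : E →+* E).comp (algebraMap K E) = (algebraMap K E).comp (τ₀ : K →+* K) :=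
        RingHom.ext fun a => hτ a
      rw [h3] at h2
      exact h2.symm
    rw [this]
    exact hmem

/-- **Galois/inertia stability.**  `σ` a ring automorphism of `F`, semilinear over `σ₀`, preserving
`E`, such that the induced automorphism `σE` of `E` preserves `discRing` and `σE x = x`,
`σ₀ ϖ = ζ ϖ` with `ζ` a unit of `A`.  Then `σ` preserves `H_e`. -/
theorem HInput.map_eq [Fact q.Prime] [CharP (IsLocalRing.ResidueField ↥R.A) q]
    (h : HInput R r e q ϖ x g rr ss c x₀ x₂) (hr : IsRedMap R r) (hC : R.IsCartesian)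
    (V : ValOver R.A F) (hV : IsHVal R r e q ϖ x V)
    (σ : F ≃+* F) (σE : E ≃+* E) (σ₀ : K ≃+* K)
    (hσ : ∀ a, σ (algebraMap K F a) = algebraMap K F (σ₀ a))
    (hσE : ∀ f, σ (algebraMap E F f) = algebraMap E F (σE f))
    (hA : ∀ a, σ₀ a ∈ R.A ↔ a ∈ R.A)
    (hdisc : ∀ f, σE f ∈ discRing R r e ↔ f ∈ discRing R r e)
    (hx : σE x = x) (ζ : K) (hζ : ζ ∈ R.A) (hζ' : ζ ∉ R.A.nonunits) (hϖ : σ₀ ϖ = ζ * ϖ) :
    V.map σ σ₀ hσ hA = V := by
  refine (h.existsUnique hr hC).unique ?_ hV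
  have hinj : Function.Injective (algebraMap E F) := (algebraMap E F).injective
  have hσK : ∀ a, σE (algebraMap K E a) = algebraMap K E (σ₀ a) := by
    intro a
    apply hinj
    rw [← hσE, ← IsScalarTower.algebraMap_apply K E F, hσ, ← IsScalarTower.algebraMap_apply K E F]
  have hτK : ∀ a, σE.symm (algebraMap K E a) = algebraMap K E (σ₀.symm a) := by
    intro a
    rw [RingEquiv.symm_apply_eq, hσK, RingEquiv.apply_symm_apply]
  have hτA : ∀ a, σ₀.symm a ∈ R.A ↔ a ∈ R.A := by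
    intro a
    rw [← hA (σ₀.symm a), RingEquiv.apply_symm_apply]
  have hU : ∀ a : K, a ∉ R.A.nonunits ↔ a ≠ 0 ∧ a⁻¹ ∈ R.A := by
    intro a
    rw [HMain_mem_nonunits_iff]
    rw [not_or, not_not]
  have hζU := (hU ζ).mp hζ'
  have hζq0 : ζ ^ q ≠ 0 := pow_ne_zero q hζU.1
  have hcomap : (V.map σ σ₀ hσ hA).O.comap (algebraMap E F) =
      (V.O.comap (algebraMap E F)).comap (σE.symm : E →+* E) := by
    ext f
    show σ.symm (algebraMap E F f) ∈ V.O ↔ algebraMap E F (σE.symm f) ∈ V.O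
    have : σ.symm (algebraMap E F f) = algebraMap E F (σE.symm f) := by
      rw [RingEquiv.symm_apply_eq, hσE, RingEquiv.apply_symm_apply]
    rw [this]
  show IsDiscVal R r e x (ϖ ^ q) ((V.map σ σ₀ hσ hA).O.comap (algebraMap E F))
  rw [hcomap]
  refine HMain_isDiscVal_comap hV σE.symm σ₀.symm hτK hτA ?_ (σ₀.symm (ζ ^ q)) ?_ ?_ ?_
  · intro f hf
    rw [← hdisc, RingEquiv.apply_symm_apply]
    exact hf
  · rw [hτA]
    exact R.A.pow_mem hζ q
  · rw [hU]
    refine ⟨(_root_.map_ne_zero _).mpr hζq0, ?_⟩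
    rw [← map_inv₀, hτA, ← inv_pow]
    exact R.A.pow_mem hζU.2 q
  · rw [RingEquiv.symm_apply_eq, map_mul, hσK, RingEquiv.apply_symm_apply, map_mul, map_inv₀, hσK,
      hx, map_pow σ₀, hϖ, mul_pow, map_mul, mul_inv, ← mul_assoc, ← mul_assoc,
      mul_inv_cancel₀ ((_root_.map_ne_zero _).mpr hζq0), one_mul]

end Fermat.Agent.S36.Geo
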