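import Fermat.Agent.S36.Geo.HIndep
import Fermat.Agent.GAL.FF.RH.Tower

/-!
# S36/Geo/HPlaces : places, genus and automorphisms of the curve `a b (b - a)^(q-1) = c`
-/

set_option autoImplicit false

namespace Fermat.Agent.S36.Geo

open AlgebraicCurve Fermat.Agent.Lib.RR IntermediateField Polynomial

variable {k Fb : Type*} [Field k] [Field Fb] [Algebra k Fb] [IsAlgClosed k] [IsFF k Fb]
variable {q : ℕ} [Fact q.Prime] [CharP k q] {c : k} {a b : Fb}

/-! ### auxiliary lemmas -/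

omit [IsAlgClosed k] [IsFF k Fb] in
theorem HPlaces_ord_add_eq_of_lt (P : Place k Fb) {f g : Fb} (hf : f ≠ 0) (hg : g ≠ 0)
    (h : P.ord f < P.ord g) : P.ord (f + g) = P.ord f := by
  have h1 : P.adicValuation g < P.adicValuation f := by
    rw [P.adicValuation_eq_exp_neg_ord hf, P.adicValuation_eq_exp_neg_ord hg, WithZero.exp_lt_exp]
    omega
  have h2 : P.adicValuation (f + g) = P.adicValuation f := Valuation.map_add_eq_of_lt_left _ h1
  unfold Place.ord
  rw [h2]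

omit [IsAlgClosed k] [IsFF k Fb] in
theorem HPlaces_ord_neg (P : Place k Fb) (f : Fb) : P.ord (-f) = P.ord f := by
  unfold Place.ord
  rw [Valuation.map_neg]

omit [IsAlgClosed k] [IsFF k Fb] in
theorem HPlaces_ord_sub_eq_of_lt (P : Place k Fb) {f g : Fb} (hf : f ≠ 0) (hg : g ≠ 0)
    (h : P.ord f < P.ord g) : P.ord (f - g) = P.ord f := by
  rw [sub_eq_add_neg]
  exact HPlaces_ord_add_eq_of_lt P hf (neg_ne_zero.2 hg) (by rwa [HPlaces_ord_neg])

omit [IsAlgClosed k] [IsFF k Fb] in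
theorem HPlaces_ord_pow (P : Place k Fb) (f : Fb) (n : ℕ) : P.ord (f ^ n) = n * P.ord f := by
  rw [← zpow_natCast, P.ord_zpow]

omit [IsAlgClosed k] [IsFF k Fb] in
theorem HPlaces_ord_const (P : Place k Fb) (e : k) : P.ord (algebraMap k Fb e) = 0 :=
  Basic_ord_algebraMap P e

/-- `e_w ≤ [F : k(x)]`. -/
theorem HPlaces_ram_le (x : Fb) (hx : Transcendental k x) [FiniteDimensional k⟮x⟯ Fb]
    [Algebra.IsSeparable k⟮x⟯ Fb] (w : Place k Fb) :
    (w.ramificationIndex k⟮x⟯ : ℤ) ≤ Module.finrank k⟮x⟯ Fb := by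
  have := Fermat.Agent.GAL.FF.isFF_adjoin x hx
  rw [← Fermat.Agent.GAL.FF.sum_ramificationIndex (F' := Fb) (w.restrict k⟮x⟯)]
  exact Finset.single_le_sum (f := fun w' : Place k Fb => (w'.ramificationIndex k⟮x⟯ : ℤ))
    (fun _ _ => by positivity) (Place.restrict_mem_fiber w)

/-- the order of `x` at a zero is at most `[F : k(x)]`. -/
theorem HPlaces_ord_le (x : Fb) (hx : Transcendental k x) [FiniteDimensional k⟮x⟯ Fb]
    [Algebra.IsSeparable k⟮x⟯ Fb] (w : Place k Fb) (hw : 0 < w.ord x) :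
    w.ord x ≤ Module.finrank k⟮x⟯ Fb := by
  have h1 := Fermat.Agent.GAL.FF.ramificationIndex_adjoin_of_pos x hx w 0
    (by rwa [map_zero, sub_zero])
  rw [map_zero, sub_zero] at h1
  rw [← h1]
  exact HPlaces_ram_le x hx w

/-- a totally ramified zero is the only zero. -/
theorem HPlaces_unique_zero (x : Fb) (hx : Transcendental k x) [FiniteDimensional k⟮x⟯ Fb]
    [Algebra.IsSeparable k⟮x⟯ Fb] (w w' : Place k Fb)
    (hw : w.ord x = Module.finrank k⟮x⟯ Fb) (hw' : 0 < w'.ord x) : w' = w := by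
  classical
  have hFF := Fermat.Agent.GAL.FF.isFF_adjoin x hx
  have hpos : (0 : ℤ) < Module.finrank k⟮x⟯ Fb := by
    exact_mod_cast (Module.finrank_pos : 0 < Module.finrank k⟮x⟯ Fb)
  have hw0 : 0 < w.ord x := by rw [hw]; exact hpos
  obtain ⟨v₀, -, huniq⟩ := Fermat.Agent.GAL.FF.RationalAux_exists_unique_zero
    (Fermat.Agent.GAL.FF.RationalAux_transcendental_gen hx)
    (Fermat.Agent.GAL.FF.RationalAux_adjoin_gen (k := k) x)
  have hres : ∀ u : Place k Fb, 0 < u.ord x → u.restrict k⟮x⟯ = v₀ := by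
    intro u hu
    apply huniq
    have h1 := u.ord_restrict (F := k⟮x⟯) (AdjoinSimple.gen k x)
    rw [AdjoinSimple.algebraMap_gen] at h1
    have he : (0 : ℤ) < (u.ramificationIndex k⟮x⟯ : ℤ) := by
      exact_mod_cast u.ramificationIndex_pos (F := k⟮x⟯)
    rw [h1] at hu
    exact (mul_pos_iff_of_pos_left he).1 hu
  by_contra hne
  have hsum := Fermat.Agent.GAL.FF.sum_ramificationIndex (F' := Fb) v₀
  have hsub : ({w, w'} : Finset (Place k Fb)) ⊆ v₀.fiber Fb := by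
    intro u hu
    rw [Finset.mem_insert, Finset.mem_singleton] at hu
    rcases hu with rfl | rfl
    · exact Place.mem_fiber.2 (hres _ hw0)
    · exact Place.mem_fiber.2 (hres _ hw')
  have hle := Finset.sum_le_sum_of_subset_of_nonneg
    (f := fun u : Place k Fb => (u.ramificationIndex k⟮x⟯ : ℤ)) hsub (fun _ _ _ => by positivity)
  rw [Finset.sum_pair (Ne.symm hne), hsum] at hle
  have h1 := Fermat.Agent.GAL.FF.ramificationIndex_adjoin_of_pos x hx w 0
    (by rwa [map_zero, sub_zero])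
  rw [map_zero, sub_zero, hw] at h1
  have he : (0 : ℤ) < (w'.ramificationIndex k⟮x⟯ : ℤ) := by
    exact_mod_cast w'.ramificationIndex_pos (F := k⟮x⟯)
  omega

namespace IsHCurve

omit [IsAlgClosed k] [IsFF k Fb] in
theorem HPlaces_hgen_symm (hgen : k⟮a, b⟯ = ⊤) : k⟮b, a⟯ = ⊤ := by
  rw [← hgen, Set.pair_comm]

omit [IsAlgClosed k] [IsFF k Fb] in
theorem HPlaces_ord_t (h : IsHCurve k q c a b) (w : Place k Fb) :
    w.ord h.t = w.ord a - w.ord b := by
  unfold IsHCurve.t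
  rw [div_eq_mul_inv, w.ord_mul h.a_ne (inv_ne_zero h.b_ne), w.ord_inv]
  ring

/-- `[Fb : k(t)] = q + 1`: `≤` from `eq_t`, `adjoin_t_b`; `≥`: a place `w` over `t = 0` exists
(`GAL.FF.Cor.exists_zero_of_transcendental`), `(q+1) ord_w b = - ord_w t` (since `ord_w (1-t) = 0`), so
`(q+1) ∣ e_w = ord_w t` (`GAL.FF.ramificationIndex_adjoin_of_pos` with `c = 0`) and
`e_w ≤ [Fb : k(t)]` (`GAL.FF.sum_ramificationIndex`). -/
theorem finrank_t (h : IsHCurve k q c a b) (hgen : k⟮a, b⟯ = ⊤) :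
    Module.finrank k⟮h.t⟯ Fb = q + 1 := by
  have hfd := h.finiteDimensional_t hgen
  have hsep := h.isSeparable_t hgen
  have hc0 : algebraMap k Fb c ≠ 0 := (_root_.map_ne_zero _).2 h.c_ne
  have heq := h.eq_t
  have hprod : h.t * (1 - h.t) ^ (q - 1) ≠ 0 := by
    intro h0
    rw [h0, zero_mul] at heq
    exact hc0 heq.symm
  have ht0 : h.t ≠ 0 := left_ne_zero_of_mul hprod
  have h1t : (1 - h.t) ^ (q - 1) ≠ 0 := right_ne_zero_of_mul hprod
  apply le_antisymm
  · have htop := h.adjoin_t_b hgen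
    have hint : IsIntegral k⟮h.t⟯ b := Algebra.IsIntegral.isIntegral b
    have h1 := IntermediateField.adjoin.finrank hint
    rw [htop, IntermediateField.finrank_top'] at h1
    rw [h1]
    let u : k⟮h.t⟯ := algebraMap k k⟮h.t⟯ c /
      (AdjoinSimple.gen k h.t * (1 - AdjoinSimple.gen k h.t) ^ (q - 1))
    have hu : algebraMap k⟮h.t⟯ Fb u = b ^ (q + 1) := by
      show algebraMap k⟮h.t⟯ Fb (algebraMap k k⟮h.t⟯ c /
        (AdjoinSimple.gen k h.t * (1 - AdjoinSimple.gen k h.t) ^ (q - 1))) = _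
      rw [map_div₀, map_mul, map_pow, map_sub, map_one, AdjoinSimple.algebraMap_gen,
        ← IsScalarTower.algebraMap_apply, ← heq, mul_div_cancel_left₀ _ hprod]
    have hp : aeval b (X ^ (q + 1) - C u : (k⟮h.t⟯)[X]) = 0 := by
      rw [map_sub, map_pow, aeval_X, aeval_C, hu, sub_self]
    have hp0 : (X ^ (q + 1) - C u : (k⟮h.t⟯)[X]) ≠ 0 :=
      (monic_X_pow_sub_C u (Nat.succ_ne_zero q)).ne_zero
    have h2 := natDegree_le_of_dvd (minpoly.dvd _ b hp) hp0
    rwa [natDegree_X_pow_sub_C] at h2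
  · obtain ⟨w, hw⟩ := Fermat.Agent.GAL.FF.Cor.exists_zero_of_transcendental h.trans_t
    have h1 : w.ord (1 - h.t) = 0 := by
      rw [HPlaces_ord_sub_eq_of_lt w one_ne_zero ht0 (by rw [w.ord_one]; exact hw), w.ord_one]
    have h2 := congrArg w.ord heq
    rw [w.ord_mul hprod (pow_ne_zero _ h.b_ne), w.ord_mul ht0 h1t, HPlaces_ord_pow,
      HPlaces_ord_pow, h1, HPlaces_ord_const] at h2
    have h3 := HPlaces_ord_le h.t h.trans_t w hw
    push_cast at h2
    have h4 : w.ord b < 0 := by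
      by_contra hcon
      push Not at hcon
      have : (0 : ℤ) ≤ ((q : ℤ) + 1) * w.ord b := by positivity
      omega
    have h5 : ((q : ℤ) + 1) * w.ord b ≤ ((q : ℤ) + 1) * (-1) :=
      mul_le_mul_of_nonneg_left (by omega) (by positivity)
    have h6 : ((q : ℤ) + 1) ≤ Module.finrank k⟮h.t⟯ Fb := by omega
    exact_mod_cast h6

omit [IsAlgClosed k] [IsFF k Fb] [CharP k q] in
theorem ord_rel (h : IsHCurve k q c a b) (w : Place k Fb) :
    w.ord a + w.ord b + ((q : ℤ) - 1) * w.ord (b - a) = 0 := by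
  have hc0 : algebraMap k Fb c ≠ 0 := (_root_.map_ne_zero _).2 h.c_ne
  have heq := h.rel
  have h1 : a * b * (b - a) ^ (q - 1) ≠ 0 := by rw [heq]; exact hc0
  have hab : a * b ≠ 0 := left_ne_zero_of_mul h1
  have hp : (b - a) ^ (q - 1) ≠ 0 := right_ne_zero_of_mul h1
  have h2 := congrArg w.ord heq
  rw [w.ord_mul hab hp, w.ord_mul (left_ne_zero_of_mul hab) (right_ne_zero_of_mul hab),
    HPlaces_ord_pow, HPlaces_ord_const] at h2
  have hq : ((q - 1 : ℕ) : ℤ) = (q : ℤ) - 1 := by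
    have := (Fact.out : q.Prime).one_le
    push_cast [Nat.cast_sub this]
    ring
  rwa [hq] at h2

theorem ord_of_gt (h : IsHCurve k q c a b) (hgen : k⟮a, b⟯ = ⊤) (w : Place k Fb)
    (hw : w.ord b < w.ord a) : w.ord b = -1 ∧ w.ord a = q := by
  have hfd := h.finiteDimensional_t hgen
  have hsep := h.isSeparable_t hgen
  have h1 : w.ord (b - a) = w.ord b := HPlaces_ord_sub_eq_of_lt w h.b_ne h.a_ne hw
  have h2 := h.ord_rel w
  rw [h1] at h2
  have h3 : w.ord a = -(q : ℤ) * w.ord b := by linarith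
  have hq0 : (0 : ℤ) < q := by exact_mod_cast (Fact.out : q.Prime).pos
  have h4 : w.ord b < 0 := by
    by_contra hcon
    push Not at hcon
    have : (0 : ℤ) ≤ (q : ℤ) * w.ord b := by positivity
    linarith
  have ht : w.ord h.t = -((q : ℤ) + 1) * w.ord b := by
    rw [h.HPlaces_ord_t, h3]
    ring
  have htpos : 0 < w.ord h.t := by
    rw [ht]
    nlinarith
  have h5 := HPlaces_ord_le h.t h.trans_t w htpos
  rw [h.finrank_t hgen, ht] at h5
  push_cast at h5
  have h6 : w.ord b = -1 := by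
    by_contra hcon
    have h7 : w.ord b ≤ -2 := by omega
    nlinarith
  refine ⟨h6, ?_⟩
  rw [h3, h6]
  ring

/-- `ord a < ord b`: then `ord (b - a) = ord a`, `ord b = - q ord a`, `ord t = (q+1) ord a < 0`;
`e_w = - ord t ≤ [Fb : k(t)] = q + 1` (`GAL.FF.ramificationIndex_adjoin_of_neg`,
`GAL.FF.sum_ramificationIndex`), so `ord a = -1`. -/
theorem ord_of_lt (h : IsHCurve k q c a b) (hgen : k⟮a, b⟯ = ⊤) (w : Place k Fb)
    (hw : w.ord a < w.ord b) : w.ord a = -1 ∧ w.ord b = q :=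
  h.symm.ord_of_gt (HPlaces_hgen_symm hgen) w hw

/-- the point `(a,b) = (0,∞)` (`t = 0`). -/
theorem existsUnique_gt (h : IsHCurve k q c a b) (hgen : k⟮a, b⟯ = ⊤) :
    ∃! w : Place k Fb, w.ord b < w.ord a := by
  have hfd := h.finiteDimensional_t hgen
  have hsep := h.isSeparable_t hgen
  obtain ⟨w, hw⟩ := Fermat.Agent.GAL.FF.Cor.exists_zero_of_transcendental h.trans_t
  have hw1 : w.ord b < w.ord a := by
    rw [h.HPlaces_ord_t] at hw
    omega
  refine ⟨w, hw1, fun w' hw' => ?_⟩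
  obtain ⟨e1, e2⟩ := h.ord_of_gt hgen w hw1
  refine HPlaces_unique_zero h.t h.trans_t w w' ?_ ?_
  · rw [h.finrank_t hgen, h.HPlaces_ord_t, e1, e2]
    push_cast
    ring
  · rw [h.HPlaces_ord_t]
    omega

/-- the point `(a,b) = (∞,0)` (`t = ∞`): totally ramified over `k(t)`. -/
theorem existsUnique_lt (h : IsHCurve k q c a b) (hgen : k⟮a, b⟯ = ⊤) :
    ∃! w : Place k Fb, w.ord a < w.ord b :=
  h.symm.existsUnique_gt (HPlaces_hgen_symm hgen)

omit [IsAlgClosed k] [IsFF k Fb] in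
theorem HPlaces_ord_c_div (h : IsHCurve k q c a b) (w : Place k Fb) :
    w.ord (algebraMap k Fb c / a) = - w.ord a := by
  have hc0 : algebraMap k Fb c ≠ 0 := (_root_.map_ne_zero _).2 h.c_ne
  rw [div_eq_mul_inv, w.ord_mul hc0 (inv_ne_zero h.a_ne), w.ord_inv, HPlaces_ord_const, zero_add]

/-- the poles of `y` are exactly the boundary points; orders. -/
theorem ord_y_of_lt (h : IsHCurve k q c a b) (hgen : k⟮a, b⟯ = ⊤) (w : Place k Fb)
    (hw : w.ord a ≠ w.ord b) : w.ord h.y = -q := by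
  have hc0 : algebraMap k Fb c ≠ 0 := (_root_.map_ne_zero _).2 h.c_ne
  have hq0 : (0 : ℤ) < q := by exact_mod_cast (Fact.out : q.Prime).pos
  have hA : a ^ q ≠ 0 := pow_ne_zero _ h.a_ne
  have hB : algebraMap k Fb c / a ≠ 0 := div_ne_zero hc0 h.a_ne
  unfold IsHCurve.y
  rcases lt_or_gt_of_ne hw with h1 | h1
  · obtain ⟨e1, -⟩ := h.ord_of_lt hgen w h1
    rw [HPlaces_ord_add_eq_of_lt w hA hB (by
      rw [HPlaces_ord_pow, h.HPlaces_ord_c_div, e1]; omega), HPlaces_ord_pow, e1]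
    ring
  · obtain ⟨-, e2⟩ := h.ord_of_gt hgen w h1
    rw [add_comm, HPlaces_ord_add_eq_of_lt w hB hA (by
      rw [HPlaces_ord_pow, h.HPlaces_ord_c_div, e2]; nlinarith), h.HPlaces_ord_c_div, e2]

theorem ord_y_of_eq_neg (h : IsHCurve k q c a b) (w : Place k Fb)
    (hw : w.ord a = w.ord b) (hneg : w.ord a < 0) : w.ord h.y = q * w.ord a := by
  have hc0 : algebraMap k Fb c ≠ 0 := (_root_.map_ne_zero _).2 h.c_ne
  have hq0 : (0 : ℤ) < q := by exact_mod_cast (Fact.out : q.Prime).pos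
  have hA : a ^ q ≠ 0 := pow_ne_zero _ h.a_ne
  have hB : algebraMap k Fb c / a ≠ 0 := div_ne_zero hc0 h.a_ne
  unfold IsHCurve.y
  rw [HPlaces_ord_add_eq_of_lt w hA hB (by
    rw [HPlaces_ord_pow, h.HPlaces_ord_c_div]; nlinarith), HPlaces_ord_pow]

theorem ord_y_nonneg (h : IsHCurve k q c a b) (w : Place k Fb) (hw : w.ord a = 0) :
    0 ≤ w.ord h.y := by
  have hc0 : algebraMap k Fb c ≠ 0 := (_root_.map_ne_zero _).2 h.c_ne
  have hA : a ^ q ≠ 0 := pow_ne_zero _ h.a_ne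
  have hB : algebraMap k Fb c / a ≠ 0 := div_ne_zero hc0 h.a_ne
  by_cases hy : h.y = 0
  · rw [hy, w.ord_zero]
  · have h1 := Fermat.Agent.S24.ord_add_ge w (f := a ^ q) (g := algebraMap k Fb c / a) hy hA hB
    rw [HPlaces_ord_pow, h.HPlaces_ord_c_div, hw] at h1
    have h2 : (0 : ℤ) ≤ w.ord (a ^ q + algebraMap k Fb c / a) := by simpa using h1
    exact h2

end IsHCurve

end Fermat.Agent.S36.Geo
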